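import Fermat.Agent.Curves.Orbits

/-!
# Degree of a field over a line from embeddings and relations
-/

set_option autoImplicit false

noncomputable section

namespace FLTAgent.X0Fn

open Polynomial IntermediateField FLTAgent.Curves

variable {K F : Type*} [Field K] [Field F] [Algebra K F]

theorem transcendental_of_order_neg {C : Type*} [Field C] {κ : K →+* C}
    (φ : F →+* LaurentSeries C) (hφ : ∀ c : K, φ (algebraMap K F c) = HahnSeries.C (κ c)) {t : F}
    (ht : (φ t).order < 0) : Transcendental K t := by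
  rintro ⟨p, hp, h⟩
  have h1 := congrArg (fun z => (φ z).coeff ((p.natDegree : ℤ) * (φ t).order)) h
  simp only [aeval_eq_sum_range, map_sum, Algebra.smul_def, map_mul, map_pow, hφ, map_zero,
    HahnSeries.coeff_sum, HahnSeries.coeff_zero, HahnSeries.C_apply, HahnSeries.coeff_single_mul,
    sub_zero] at h1
  have ht0 : φ t ≠ 0 := fun h0 => by simp [h0] at ht
  rw [Finset.sum_eq_single p.natDegree, ← lord_pow, ← HahnSeries.leadingCoeff_eq] at h1
  · exact mul_ne_zero (by simpa using leadingCoeff_ne_zero.2 hp)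
      (HahnSeries.leadingCoeff_ne_zero.2 (pow_ne_zero _ ht0)) h1
  · intro i hi hne
    rw [HahnSeries.coeff_eq_zero_of_lt_order, mul_zero]
    rw [lord_pow]
    have := Finset.mem_range.1 hi
    nlinarith [show (i : ℤ) + 1 ≤ p.natDegree by omega]
  · simp

theorem exists_monic {j x : F} {n : ℕ} {E : IntermediateField K F}
    (haev : ∀ p : K[X], aeval j p ∈ E) (P : Fin n → K[X])
    (h : x ^ n + ∑ m, aeval j (P m) * x ^ (m : ℕ) = 0) :
    ∃ Q : E[X], Q.Monic ∧ Q.natDegree ≤ n ∧ aeval x Q = 0 := by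
  set R : E[X] := ∑ m : Fin n, C (⟨_, haev (P m)⟩ : E) * X ^ (m : ℕ) with hR
  have hRdeg : R.degree < n := degree_sum_fin_lt _
  refine ⟨X ^ n + R, monic_X_pow_add hRdeg, ?_, ?_⟩
  · refine natDegree_le_of_degree_le ((degree_add_le _ _).trans ?_)
    rw [degree_X_pow]
    exact max_le le_rfl hRdeg.le
  · rw [map_add, map_pow, aeval_X, hR, map_sum]
    simp only [map_mul, aeval_C, map_pow, aeval_X]
    exact h

theorem degree_core [CharZero K] {j : F} (htr : Transcendental K j) {G : Set F} (hGfin : G.Finite)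
    (hjA : j ∈ Algebra.adjoin K G)
    (hfrac : ∀ f : F, ∃ a ∈ Algebra.adjoin K G, ∃ b ∈ Algebra.adjoin K G, f = a / b)
    {I : Type*} [Fintype I] [Nonempty I]
    (hrel : ∀ a ∈ Algebra.adjoin K G, ∃ P : Fin (Fintype.card I) → K[X],
      a ^ Fintype.card I + ∑ m, aeval j (P m) * a ^ (m : ℕ) = 0)
    {C : Type*} [Field C] (φ : I → F →+* C) (hinj : Function.Injective φ)
    (hK : ∀ i i', ∀ c : K, φ i (algebraMap K F c) = φ i' (algebraMap K F c))
    (hj : ∀ i i', φ i j = φ i' j) :
    IsFunctionField K F ∧ Module.finrank K⟮j⟯ F = Fintype.card I := by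
  classical
  have haev : ∀ p : K[X], aeval j p ∈ K⟮j⟯ := fun p =>
    (mem_adjoin_simple_iff K _).2 ⟨p, 1, by simp⟩
  have hdeg : ∀ a ∈ Algebra.adjoin K G, ∃ Q : K⟮j⟯[X],
      Q.Monic ∧ Q.natDegree ≤ Fintype.card I ∧ aeval a Q = 0 := fun a ha => by
    obtain ⟨P, hP⟩ := hrel a ha
    exact exists_monic haev P hP
  have hint : ∀ a ∈ Algebra.adjoin K G, IsIntegral K⟮j⟯ a := fun a ha => by
    obtain ⟨Q, h1, -, h3⟩ := hdeg a ha
    exact ⟨Q, h1, by rw [← aeval_def]; exact h3⟩
  have hGint : ∀ x ∈ G, IsIntegral K⟮j⟯ x := fun x hx => hint x (Algebra.subset_adjoin hx)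
  have htop : IntermediateField.adjoin K⟮j⟯ G = ⊤ := by
    apply eq_top_iff.2
    intro f _
    have hA : Algebra.adjoin K G ≤
        ((IntermediateField.adjoin K⟮j⟯ G).restrictScalars K).toSubalgebra :=
      Algebra.adjoin_le (IntermediateField.subset_adjoin _ _)
    obtain ⟨a, ha, b, hb, rfl⟩ := hfrac f
    exact div_mem (show a ∈ IntermediateField.adjoin K⟮j⟯ G from hA ha) (hA hb)
  haveI : Finite G := hGfin.to_subtype
  have hfd : FiniteDimensional K⟮j⟯ F := by
    have h := IntermediateField.finiteDimensional_adjoin hGint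
    rw [htop] at h
    exact Module.Finite.equiv (IntermediateField.topEquiv (F := K⟮j⟯) (E := F)).toLinearEquiv
  refine ⟨IsFunctionField.mk_of _ htr hfd, le_antisymm ?_ ?_⟩
  · haveI : CharZero F := charZero_of_injective_algebraMap (algebraMap K F).injective
    haveI : CharZero K⟮j⟯ := charZero_of_injective_algebraMap (algebraMap K K⟮j⟯).injective
    haveI : Algebra.IsSeparable K⟮j⟯ F := Algebra.IsSeparable.of_integral _ _
    obtain ⟨α, hα⟩ := Field.exists_primitive_element K⟮j⟯ F
    have hjA' : ∀ p : K[X], aeval j p ∈ Algebra.adjoin K G := fun p =>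
      Algebra.adjoin_le (by simpa using hjA : ({j} : Set F) ⊆ Algebra.adjoin K G)
        (aeval_mem_adjoin_singleton K j)
    have hscale : ∀ x ∈ Algebra.adjoin K⟮j⟯ G, ∃ p : K[X], p ≠ 0 ∧
        aeval j p * x ∈ Algebra.adjoin K G := by
      intro x hx
      induction hx using Algebra.adjoin_induction with
      | mem x hx => exact ⟨1, one_ne_zero, by simpa using Algebra.subset_adjoin hx⟩
      | algebraMap e =>
          obtain ⟨r, s, hrs⟩ := (mem_adjoin_simple_iff K _).1 e.2
          rcases eq_or_ne s 0 with rfl | hs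
          · refine ⟨1, one_ne_zero, ?_⟩
            rw [show algebraMap K⟮j⟯ F e = (e : F) from rfl, hrs]
            simp
          refine ⟨s, hs, ?_⟩
          rw [show algebraMap K⟮j⟯ F e = (e : F) from rfl, hrs,
            mul_div_cancel₀ _ fun h => htr ⟨s, hs, h⟩]
          exact hjA' r
      | add x y _ _ hx hy =>
          obtain ⟨p, hp, ha⟩ := hx
          obtain ⟨q, hq, hb⟩ := hy
          refine ⟨p * q, mul_ne_zero hp hq, ?_⟩
          rw [show aeval j (p * q) * (x + y) =
            aeval j p * x * aeval j q + aeval j q * y * aeval j p by rw [map_mul]; ring]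
          exact add_mem (mul_mem ha (hjA' q)) (mul_mem hb (hjA' p))
      | mul x y _ _ hx hy =>
          obtain ⟨p, hp, ha⟩ := hx
          obtain ⟨q, hq, hb⟩ := hy
          refine ⟨p * q, mul_ne_zero hp hq, ?_⟩
          rw [show aeval j (p * q) * (x * y) = aeval j p * x * (aeval j q * y) by rw [map_mul]; ring]
          exact mul_mem ha hb
    have hαmem : α ∈ Algebra.adjoin K⟮j⟯ G := by
      rw [← IntermediateField.adjoin_toSubalgebra_of_isAlgebraic fun x hx => (hGint x hx).isAlgebraic,
        htop]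
      exact trivial
    obtain ⟨p, hp, ha⟩ := hscale α hαmem
    have hp0 : aeval j p ≠ 0 := fun h => htr ⟨p, hp, h⟩
    have htopa : K⟮j⟯⟮aeval j p * α⟯ = ⊤ := by
      rw [eq_top_iff, ← hα, adjoin_simple_le_iff]
      have h2 := mul_mem (inv_mem ((K⟮j⟯⟮aeval j p * α⟯).algebraMap_mem ⟨_, haev p⟩))
        (mem_adjoin_simple_self K⟮j⟯ (aeval j p * α))
      rwa [show algebraMap K⟮j⟯ F ⟨_, haev p⟩ = aeval j p from rfl, inv_mul_cancel_left₀ hp0] at h2
    have h1 := IntermediateField.adjoin.finrank (hint _ ha)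
    rw [htopa, IntermediateField.finrank_top'] at h1
    rw [h1]
    obtain ⟨Q, hQ1, hQ2, hQ3⟩ := hdeg _ ha
    exact (natDegree_le_natDegree (minpoly.min _ _ hQ1 hQ3)).trans hQ2
  · obtain ⟨i₀⟩ := ‹Nonempty I›
    letI : Algebra K⟮j⟯ C := ((φ i₀).comp (algebraMap K⟮j⟯ F)).toAlgebra
    have hagree : ∀ (i : I) (e : K⟮j⟯), φ i (e : F) = φ i₀ (e : F) := by
      rintro i ⟨e, he⟩
      induction he using IntermediateField.adjoin_induction with
      | mem x hx => rw [Set.mem_singleton_iff] at hx; subst hx; exact hj i i₀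
      | algebraMap c => exact hK i i₀ c
      | add x y _ _ hx hy => simp only [map_add] at *; rw [hx, hy]
      | inv x _ hx => simp only [map_inv₀] at *; rw [hx]
      | mul x y _ _ hx hy => simp only [map_mul] at *; rw [hx, hy]
    let Φ : I → (F →ₐ[K⟮j⟯] C) := fun i => { φ i with commutes' := fun e => hagree i e }
    have hΦ : Function.Injective Φ := fun q q' h => hinj (congrArg AlgHom.toRingHom h)
    haveI := hfd
    have h1 := (Cardinal.lift_mk_le_lift_mk_of_injective hΦ).trans
      (Cardinal.lift_le.2 (cardinalMk_algHom K⟮j⟯ F C))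
    rw [Cardinal.mk_fintype, Module.finrank_linearMap_self] at h1
    simpa using h1

end FLTAgent.X0Fn
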