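import Fermat.Agent.X0Fn.Level
import Fermat.Agent.CuspForms.Translates
import Fermat.Agent.X0Fn.DegreeCore

/-!
# The function field of `X₀(N)`: embeddings and degree
-/

set_option autoImplicit false

noncomputable section

open UpperHalfPlane CongruenceSubgroup Filter Complex Function IntermediateField
open scoped Topology Manifold MatrixGroups

namespace FLTAgent.X0Fn

open FLTAgent.ES (jfun)
open ModularCurve

variable (K : Type*) [Field K] [Algebra ℚ K] (N : ℕ) [NeZero N]

/-- The function field with constants `K`. -/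
abbrev XF : IntermediateField K (LaurentSeries K) :=
  laurentBaseChange K (modularFunctionFieldFull N)

/-- Its generators `j (d τ)`. -/
def xGens : Set (LaurentSeries K) := ⇑(coeffEmb K) '' divisorExpansions N

/-- The algebra generated by the `j (d τ)`. -/
abbrev XA : Subalgebra K (LaurentSeries K) := Algebra.adjoin K (xGens K N)

omit [NeZero N] in
theorem XF_eq_adjoin : XF K N = IntermediateField.adjoin K (xGens K N) := by
  refine le_antisymm (IntermediateField.adjoin_le_iff.2 ?_) (IntermediateField.adjoin_le_iff.2 ?_)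
  · rintro _ ⟨x, hx, rfl⟩
    induction hx using IntermediateField.adjoin_induction with
    | mem y hy => exact IntermediateField.subset_adjoin K _ ⟨y, hy, rfl⟩
    | algebraMap q =>
        have : coeffEmb K (algebraMap ℚ (LaurentSeries ℚ) q) =
            algebraMap K (LaurentSeries K) (algebraMap ℚ K q) := by
          rw [algebraMap_apply_eq_single, algebraMap_laurentSeries_eq_single, coeffEmb, coeffMap_single]
        rw [this]
        exact IntermediateField.algebraMap_mem _ _
    | add a b _ _ ha hb => simp only [SetLike.mem_coe] at *; rw [map_add]; exact add_mem ha hb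
    | inv a _ ha => simp only [SetLike.mem_coe] at *; rw [map_inv₀]; exact inv_mem ha
    | mul a b _ _ ha hb => simp only [SetLike.mem_coe] at *; rw [map_mul]; exact mul_mem ha hb
  · rintro _ ⟨x, hx, rfl⟩
    exact coeffEmb_mem_laurentBaseChange K (IntermediateField.subset_adjoin ℚ _ hx)

omit [NeZero N] in
theorem XA_le : XA K N ≤ (XF K N).toSubalgebra := by
  rw [XF_eq_adjoin]; exact IntermediateField.algebra_adjoin_le_adjoin K _

omit [NeZero N] in
theorem exists_div {f : LaurentSeries K} (hf : f ∈ XF K N) :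
    ∃ a ∈ XA K N, ∃ b ∈ XA K N, f = a / b := by
  rw [XF_eq_adjoin] at hf
  obtain ⟨a, ha, b, hb, e⟩ := IntermediateField.mem_adjoin_iff_div.1 hf
  exact ⟨a, ha, b, hb, e⟩

/-- Inclusion of the algebra into the field. -/
def incA : XA K N →ₐ[K] XF K N := Subalgebra.inclusion (XA_le K N)

omit [NeZero N] in
theorem coeffEmb_jq_mem_XA : coeffEmb K jq ∈ XA K N :=
  Algebra.subset_adjoin ⟨jq, ⟨1, ⟨one_ne_zero⟩, one_dvd N, (qExpand_one_apply jq).symm⟩, rfl⟩

/-- `j` in the algebra. -/
def jA : XA K N := ⟨coeffEmb K jq, coeffEmb_jq_mem_XA K N⟩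

/-- `j` in the field. -/
def jF : XF K N := incA K N (jA K N)

variable {K} {N} (κ : K →+* ℂ)

/-- Formal series in `q` to complex series in `q_N`. -/
def iota : LaurentSeries K →+* LaurentSeries ℂ :=
  (qExpand ℂ N).comp (coeffMap κ)

theorem iota_injective : Injective (iota (N := N) κ) :=
  (qExpand_injective N).comp fun x y h => HahnSeries.ext <| funext fun k =>
    κ.injective (congrArg (fun z : LaurentSeries ℂ => z.coeff k) h)

theorem iota_algebraMap (c : K) :
    iota (N := N) κ (algebraMap K (LaurentSeries K) c) = algebraMap ℂ (LaurentSeries ℂ) (κ c) := by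
  rw [iota, RingHom.comp_apply, algebraMap_laurentSeries_eq_single, coeffMap_single, qExpand_single,
    mul_zero, algebraMap_laurentSeries_eq_single]

theorem iota_coeffEmb (x : LaurentSeries ℚ) :
    iota (N := N) κ (coeffEmb K x) = qExpand ℂ N (coeffMap (algebraMap ℚ ℂ) x) := by
  rw [iota, RingHom.comp_apply, coeffEmb, coeffMap_coeffMap]
  congr 1
  exact coeffMap_congr (Subsingleton.elim _ _) x

theorem exists_W0 {a : LaurentSeries K} (ha : a ∈ XA K N) :
    ∃ f : W0 N, expW N f = iota (N := N) κ a := by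
  induction ha using Algebra.adjoin_induction with
  | mem x hx =>
      obtain ⟨y, ⟨d, hne, hd, rfl⟩, rfl⟩ := hx
      exact ⟨⟨jd d, jd_mem_W0 hd⟩, by rw [expW_jd hd, iota_coeffEmb]⟩
  | algebraMap r => exact ⟨algebraMap ℂ _ (κ r), by rw [AlgHom.commutes, iota_algebraMap]⟩
  | add x y _ _ hx hy =>
      obtain ⟨f, hf⟩ := hx
      obtain ⟨g, hg⟩ := hy
      exact ⟨f + g, by rw [map_add, map_add, hf, hg]⟩
  | mul x y _ _ hx hy =>
      obtain ⟨f, hf⟩ := hx
      obtain ⟨g, hg⟩ := hy
      exact ⟨f * g, by rw [map_mul, map_mul, hf, hg]⟩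

/-- The function with the given expansion. -/
def toW : XA K N →+* W0 N where
  toFun a := (exists_W0 κ a.2).choose
  map_one' := expW_injective <| (exists_W0 κ (XA K N).one_mem).choose_spec.trans (by simp)
  map_zero' := expW_injective <| (exists_W0 κ (XA K N).zero_mem).choose_spec.trans (by simp)
  map_add' a b := expW_injective <| (exists_W0 κ (a + b).2).choose_spec.trans (by
    rw [map_add (expW N), (exists_W0 κ a.2).choose_spec, (exists_W0 κ b.2).choose_spec]
    exact map_add _ _ _)
  map_mul' a b := expW_injective <| (exists_W0 κ (a * b).2).choose_spec.trans (by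
    rw [map_mul (expW N), (exists_W0 κ a.2).choose_spec, (exists_W0 κ b.2).choose_spec]
    exact map_mul _ _ _)

theorem expW_toW (a : XA K N) : expW N (toW κ a) = iota (N := N) κ a :=
  (exists_W0 κ a.2).choose_spec

theorem toW_injective : Injective (toW (N := N) κ) := fun a b h =>
  Subtype.ext (iota_injective κ (by rw [← expW_toW, ← expW_toW, h]))

theorem toW_algebraMap (c : K) :
    toW κ (algebraMap K (XA K N) c) = algebraMap ℂ (W0 N) (κ c) :=
  expW_injective (by rw [expW_toW, AlgHom.commutes]; exact iota_algebraMap κ c)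

theorem toW_gen {d : ℕ} [NeZero d] (hd : d ∣ N) (h : coeffEmb K (qExpand ℚ d jq) ∈ XA K N) :
    toW κ ⟨_, h⟩ = ⟨jd d, jd_mem_W0 hd⟩ :=
  expW_injective (by rw [expW_toW, expW_jd hd, iota_coeffEmb])

theorem toW_jA : (toW κ (jA K N) : ℍ → ℂ) = jfun := by
  rw [← jd_one]
  have h1 : coeffEmb K (qExpand ℚ 1 jq) ∈ XA K N := by
    rw [qExpand_one_apply]; exact coeffEmb_jq_mem_XA K N
  rw [← show toW κ (⟨_, h1⟩ : XA K N) = toW κ (jA K N) from
    congrArg _ (Subtype.ext (by show coeffEmb K _ = coeffEmb K jq; rw [qExpand_one_apply])),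
    toW_gen κ (one_dvd N)]

/-! ### Extension to the field -/

theorem le_adjoin_gens : XF K N ≤ IntermediateField.adjoin K (xGens K N) := (XF_eq_adjoin K N).le

open scoped IntermediateField.algebraAdjoinAdjoin in
/-- Extension of an injective map on the algebra. -/
def liftF (ψ : XA K N →+* LaurentSeries ℂ) (hψ : Injective ψ) : XF K N →+* LaurentSeries ℂ :=
  (IsFractionRing.lift (A := XA K N) (K := IntermediateField.adjoin K (xGens K N)) hψ).comp
    (IntermediateField.inclusion le_adjoin_gens).toRingHom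

open scoped IntermediateField.algebraAdjoinAdjoin in
theorem liftF_incA (ψ : XA K N →+* LaurentSeries ℂ) (hψ : Injective ψ) (a : XA K N) :
    liftF ψ hψ (incA K N a) = ψ a := by
  have : IntermediateField.inclusion le_adjoin_gens (incA K N a) =
      algebraMap (XA K N) (IntermediateField.adjoin K (xGens K N)) a := Subtype.ext rfl
  rw [liftF, RingHom.comp_apply]
  show IsFractionRing.lift hψ (IntermediateField.inclusion le_adjoin_gens (incA K N a)) = _
  rw [this, IsFractionRing.lift_algebraMap]

theorem exists_incA_div (f : XF K N) :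
    ∃ a b : XA K N, f = incA K N a / incA K N b := by
  obtain ⟨a, ha, b, hb, e⟩ := exists_div K N f.2
  exact ⟨⟨a, ha⟩, ⟨b, hb⟩, Subtype.ext e⟩

/-- Translates as series at `∞`. -/
def cuspHom (q : Cos N) : XA K N →+* LaurentSeries ℂ :=
  ((expL (N : ℝ)).comp ((trans q).codRestrict (PerL (N : ℝ)) (trans_mem_PerL q))).toRingHom.comp
    (toW κ)

theorem cuspHom_apply (q : Cos N) (a : XA K N) :
    cuspHom κ q a = expL (N : ℝ) ⟨trans q (toW κ a), trans_mem_PerL q _⟩ := rfl

theorem cuspHom_injective (q : Cos N) : Injective (cuspHom κ q) := fun a b h =>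
  toW_injective κ (trans_injective q (congrArg Subtype.val (expL_injective h)))

/-- Translates as series at a point. -/
def pointHom (τ₀ : ℍ) (q : Cos N) : XA K N →+* LaurentSeries ℂ :=
  (HahnSeries.ofPowerSeries ℤ ℂ).comp
    (((taylorAt τ₀).comp ((trans q).codRestrict Hol (trans_mem_Hol q))).toRingHom.comp (toW κ))

theorem pointHom_apply (τ₀ : ℍ) (q : Cos N) (a : XA K N) :
    pointHom κ τ₀ q a =
      HahnSeries.ofPowerSeries ℤ ℂ (taylorAt τ₀ ⟨trans q (toW κ a), trans_mem_Hol q _⟩) := rfl

theorem pointHom_injective (τ₀ : ℍ) (q : Cos N) : Injective (pointHom κ τ₀ q) := fun a b h =>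
  toW_injective κ (trans_injective q (congrArg Subtype.val
    (taylorAt_injective τ₀ (HahnSeries.ofPowerSeries_injective h))))

/-- The embedding of the field at `∞`. -/
def cuspEmb (q : Cos N) : XF K N →+* LaurentSeries ℂ := liftF _ (cuspHom_injective κ q)

/-- The embedding of the field at a point. -/
def pointEmb (τ₀ : ℍ) (q : Cos N) : XF K N →+* LaurentSeries ℂ :=
  liftF _ (pointHom_injective κ τ₀ q)

theorem cuspEmb_incA (q : Cos N) (a : XA K N) : cuspEmb κ q (incA K N a) = cuspHom κ q a :=
  liftF_incA _ _ a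

theorem pointEmb_incA (τ₀ : ℍ) (q : Cos N) (a : XA K N) :
    pointEmb κ τ₀ q (incA K N a) = pointHom κ τ₀ q a :=
  liftF_incA _ _ a

theorem cuspEmb_algebraMap (q : Cos N) (c : K) :
    cuspEmb κ q (algebraMap K (XF K N) c) = HahnSeries.C (κ c) := by
  rw [← AlgHom.commutes (incA K N) c, cuspEmb_incA, cuspHom, RingHom.comp_apply, toW_algebraMap]
  rw [AlgHom.toRingHom_eq_coe, RingHom.coe_coe, AlgHom.commutes, algebraMap_laurentSeries_eq_single]
  rfl

theorem pointEmb_algebraMap (τ₀ : ℍ) (q : Cos N) (c : K) :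
    pointEmb κ τ₀ q (algebraMap K (XF K N) c) = HahnSeries.C (κ c) := by
  rw [← AlgHom.commutes (incA K N) c, pointEmb_incA, pointHom, RingHom.comp_apply,
    RingHom.comp_apply, toW_algebraMap]
  rw [AlgHom.toRingHom_eq_coe, RingHom.coe_coe, AlgHom.commutes, PowerSeries.algebraMap_apply,
    Algebra.algebraMap_self, RingHom.id_apply, HahnSeries.ofPowerSeries_C]

theorem trans_toW_jA (q : Cos N) : trans q (toW κ (jA K N)) = jfun := by
  funext τ
  show (toW κ (jA K N) : ℍ → ℂ) _ = _
  rw [toW_jA, FLTAgent.ES.jfun_smul]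

theorem cuspEmb_jF (q : Cos N) : cuspEmb κ q (jF K N) = iota (N := N) κ (coeffEmb K jq) := by
  rw [jF, cuspEmb_incA, cuspHom_apply,
    show iota (N := N) κ (coeffEmb K jq) = expW N (toW κ (jA K N)) from (expW_toW κ (jA K N)).symm,
    expW_apply]
  congr 1
  exact Subtype.ext ((trans_toW_jA κ q).trans (toW_jA κ).symm)

theorem cuspEmb_injective : Injective (cuspEmb (N := N) κ) := by
  intro q q' h
  have hN : coeffEmb K (qExpand ℚ N jq) ∈ XA K N :=
    Algebra.subset_adjoin ⟨_, ⟨N, inferInstance, dvd_rfl, rfl⟩, rfl⟩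
  have h1 := congrArg (fun φ : XF K N →+* LaurentSeries ℂ => φ (incA K N ⟨_, hN⟩)) h
  simp only [cuspEmb_incA, cuspHom_apply] at h1
  have h2 := congrArg Subtype.val (expL_injective h1)
  simp only [toW_gen κ dvd_rfl] at h2
  exact cos_eq_of_trans_jd h2

theorem pointEmb_injective (τ₀ : ℍ) : Injective (pointEmb (N := N) κ τ₀) := by
  intro q q' h
  have hN : coeffEmb K (qExpand ℚ N jq) ∈ XA K N :=
    Algebra.subset_adjoin ⟨_, ⟨N, inferInstance, dvd_rfl, rfl⟩, rfl⟩
  have h1 := congrArg (fun φ : XF K N →+* LaurentSeries ℂ => φ (incA K N ⟨_, hN⟩)) h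
  simp only [pointEmb_incA, pointHom_apply] at h1
  have h2 := congrArg Subtype.val (taylorAt_injective τ₀ (HahnSeries.ofPowerSeries_injective h1))
  simp only [toW_gen κ dvd_rfl] at h2
  exact cos_eq_of_trans_jd h2

/-! ### The relation over `K (j)` -/

/-- Coefficientwise application of a functional, along `q = q_N ^ N`. -/
def descend [Algebra K ℂ] (l : ℂ →ₗ[K] K) : LaurentSeries ℂ →+ LaurentSeries K where
  toFun x := HahnSeries.ofSuppBddBelow (fun k => l (x.coeff ((N : ℤ) * k)))
    ⟨min x.order 0, fun k hk => by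
      have h1 : x.coeff ((N : ℤ) * k) ≠ 0 := fun h => hk (by simp [h])
      have h2 := HahnSeries.order_le_of_coeff_ne_zero h1
      rcases le_or_gt 0 k with h | h
      · exact (min_le_right _ _).trans h
      · refine (min_le_left _ _).trans (h2.trans ?_)
        have : (1 : ℤ) ≤ N := by exact_mod_cast Nat.pos_of_ne_zero (NeZero.ne N)
        nlinarith⟩
  map_zero' := by ext k; simp [HahnSeries.ofSuppBddBelow]
  map_add' x y := by ext k; simp [HahnSeries.ofSuppBddBelow]

theorem exists_relation (κ : K →+* ℂ) (a : XA K N) :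
    ∃ P : Fin (Fintype.card (Cos N)) → Polynomial K,
      (a : LaurentSeries K) ^ Fintype.card (Cos N) +
        ∑ m, Polynomial.aeval (coeffEmb K jq) (P m) * (a : LaurentSeries K) ^ (m : ℕ) = 0 := by
  classical
  set n := Fintype.card (Cos N) with hn
  set x : Cos N → ℍ → ℂ := fun q => trans q (toW κ a) with hx
  set c : ℕ → ℍ → ℂ := fun m => FLTAgent.CuspForms.symCoeff x m with hc
  have hev : ∀ m τ, c m τ = FLTAgent.CuspForms.symCoeff (fun q => x q τ) m := fun m τ => by
    simp [hc, FLTAgent.CuspForms.symCoeff, Finset.sum_apply, Finset.prod_apply]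
  have hinv : ∀ m (g : SL(2, ℤ)) τ, c m (g • τ) = c m τ := fun m g τ => by
    rw [hev, hev]
    have : (fun q => x q (g • τ)) = (fun q => x q τ) ∘ MulAction.toPerm g⁻¹ := by
      funext q
      simp only [hx, comp_apply, MulAction.toPerm_apply, trans_smul, inv_inv]
    rw [this, FLTAgent.CuspForms.symCoeff_comp_perm]
  have hmem : ∀ (S : Subalgebra ℂ (ℍ → ℂ)), (∀ q, x q ∈ S) → ∀ m, c m ∈ S := fun S hS m => by
    simp only [hc, FLTAgent.CuspForms.symCoeff]
    exact S.sum_mem fun t _ => S.prod_mem fun q _ => S.neg_mem (hS q)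
  have hW : ∀ m, c m ∈ W0 N := fun m => by
    refine ⟨hmem Hol (fun q => trans_mem_Hol q _) m, fun γ _ τ => hinv m γ τ, fun g => ?_⟩
    rw [funext (hinv m g)]
    exact hmem _ (fun q => trans_mem_PerL q _) m
  choose p hp using fun m => exists_poly_of_level_one (hW m) (hinv m)
  -- the identity between functions
  set f := toW κ a
  set jW := toW κ (jA K N)
  have hrel : f ^ n + ∑ m : Fin n, Polynomial.aeval jW (p m) * f ^ (m : ℕ) = 0 := by
    apply Subtype.ext
    funext τ
    have h0 := congrArg (fun P : Polynomial ℂ => P.eval (x ((1 : SL(2, ℤ)) : Cos N) τ))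
      (FLTAgent.CuspForms.prod_X_sub_C_eq fun q => x q τ)
    rw [Polynomial.eval_prod, Finset.prod_eq_zero (Finset.mem_univ ((1 : SL(2, ℤ)) : Cos N))
      (by simp), Polynomial.eval_finsetSum, Finset.sum_range_succ, FLTAgent.CuspForms.symCoeff_card] at h0
    have hx1 : x ((1 : SL(2, ℤ)) : Cos N) τ = (f : ℍ → ℂ) τ := congrFun (trans_one f) τ
    simp only [Polynomial.eval_mul, Polynomial.eval_C, Polynomial.eval_pow, Polynomial.eval_X, hx1,
      one_mul, ← hev, hp] at h0
    rw [Finset.sum_range] at h0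
    have hev2 : ∀ m : Fin n, ((Polynomial.aeval jW (p m) : W0 N) : ℍ → ℂ) τ = (p m).eval (jfun τ) := by
      intro m
      rw [Polynomial.aeval_subalgebra_coe]
      have : ((Polynomial.aeval (jW : ℍ → ℂ) (p m)) : ℍ → ℂ) τ =
          Polynomial.aeval ((jW : ℍ → ℂ) τ) (p m) :=
        (Polynomial.aeval_algHom_apply (Pi.evalAlgHom ℂ (fun _ : ℍ => ℂ) τ) _ _).symm
      rw [this, toW_jA, Polynomial.coe_aeval_eq_eval]
    simp only [AddMemClass.coe_add, SubmonoidClass.coe_pow, AddSubmonoidClass.coe_finsetSum,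
      MulMemClass.coe_mul, Pi.add_apply, Pi.pow_apply, Finset.sum_apply, Pi.mul_apply, hev2,
      ZeroMemClass.coe_zero, Pi.zero_apply]
    rw [h0, add_comm]
  -- descend to `K`
  letI : Algebra K ℂ := κ.toAlgebra
  obtain ⟨l, hl⟩ := LinearMap.exists_leftInverse_of_injective (Algebra.linearMap K ℂ)
    (LinearMap.ker_eq_bot.2 κ.injective)
  have hl1 : l 1 = 1 := by
    have := congrArg (fun φ : K →ₗ[K] K => φ 1) hl
    simpa using this
  have hD : ∀ (z : ℂ) (b : LaurentSeries K),
      descend (N := N) l (algebraMap ℂ (LaurentSeries ℂ) z * iota (N := N) κ b) =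
        algebraMap K (LaurentSeries K) (l z) * b := fun z b => by
    ext k
    show l ((algebraMap ℂ (LaurentSeries ℂ) z * iota (N := N) κ b).coeff ((N : ℤ) * k)) =
      (algebraMap K (LaurentSeries K) (l z) * b).coeff k
    rw [algebraMap_laurentSeries_eq_single, algebraMap_laurentSeries_eq_single,
      HahnSeries.coeff_single_mul, HahnSeries.coeff_single_mul, sub_zero, sub_zero, iota,
      RingHom.comp_apply, qExpand_coeff_mul,
      coeffMap_coeff, mul_comm z, show κ (b.coeff k) * z = (b.coeff k) • z from rfl,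
      map_smul, smul_eq_mul, mul_comm]
  refine ⟨fun m => ∑ i ∈ Finset.range ((p m).natDegree + 1),
    Polynomial.C (l ((p m).coeff i)) * Polynomial.X ^ i, ?_⟩
  have h1 := congrArg (expW N) hrel
  have he : ∀ P : Polynomial ℂ,
      expW N (Polynomial.aeval jW P) = Polynomial.aeval (iota (N := N) κ (coeffEmb K jq)) P := by
    intro P
    have e := expW_toW κ (jA K N)
    exact (Polynomial.aeval_algHom_apply (expW N) jW P).symm.trans
      (congrArg (fun z => Polynomial.aeval z P) e)
  simp only [map_add, map_pow, map_sum, map_mul, map_zero, he,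
    show expW N f = iota (N := N) κ a from expW_toW κ a] at h1
  simp only [Polynomial.aeval_eq_sum_range, Finset.sum_mul, Algebra.smul_def, mul_assoc] at h1
  simp only [← map_pow, ← map_mul] at h1
  have h2 := congrArg (descend (N := N) l) h1
  simp only [map_add, map_sum, map_zero, hD] at h2
  rw [← one_mul (iota (N := N) κ ((a : LaurentSeries K) ^ n)),
    ← map_one (algebraMap ℂ (LaurentSeries ℂ)), hD, hl1, map_one, one_mul] at h2
  refine (congrArg _ (Finset.sum_congr rfl fun m _ => ?_)).trans h2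
  rw [map_sum, Finset.sum_mul]
  refine Finset.sum_congr rfl fun i _ => ?_
  rw [map_mul, Polynomial.aeval_C, map_pow, Polynomial.aeval_X, mul_assoc, map_pow]

/-! ### Degree -/

omit [NeZero N] in
theorem finite_xGens [NeZero N] : (xGens K N).Finite := by
  refine Set.Finite.image _ ?_
  refine (Set.finite_range fun d : N.divisors =>
    @qExpand ℚ _ (d : ℕ) ⟨(Nat.pos_of_mem_divisors d.2).ne'⟩ jq).subset ?_
  rintro _ ⟨d, hne, hd, rfl⟩
  exact ⟨⟨d, Nat.mem_divisors.2 ⟨hd, NeZero.ne N⟩⟩, rfl⟩

theorem order_iota_jq :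
    (iota (N := N) κ (coeffEmb K jq)).order = -(N : ℤ) := by
  rw [iota_coeffEmb, ← qExpand_one_apply jq, ← coeffMap_qExpand, qExpand_qExpand, qExpand_jq]
  rw [show (-((N * 1 : ℕ) : ℤ)) = -(N : ℤ) by simp]
  refine order_single_mul_ofPowerSeries one_ne_zero ?_ _
  rw [← PowerSeries.coeff_zero_eq_constantCoeff_apply, stretch, PowerSeries.coeff_mk]
  simp [jNumC, PowerSeries.coeff_map]

theorem transcendental_jF (κ : K →+* ℂ) : Transcendental K (jF K N) :=
  transcendental_of_order_neg (cuspEmb κ ((1 : SL(2, ℤ)) : Cos N))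
    (fun c => cuspEmb_algebraMap κ _ c) (by
      rw [cuspEmb_jF, order_iota_jq]
      have := Nat.pos_of_ne_zero (NeZero.ne N)
      omega)

/-- The generators inside the field. -/
def fGens (K : Type*) [Field K] [Algebra ℚ K] (N : ℕ) : Set (XF K N) :=
  {x | (x : LaurentSeries K) ∈ xGens K N}

omit [NeZero N] in
theorem mem_adjoin_fGens {x : XF K N} (hx : (x : LaurentSeries K) ∈ XA K N) :
    x ∈ Algebra.adjoin K (fGens K N) := by
  obtain ⟨x, hxF⟩ := x
  replace hx : x ∈ XA K N := hx
  revert hxF
  induction hx using Algebra.adjoin_induction with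
  | mem y hy => exact fun _ => Algebra.subset_adjoin hy
  | algebraMap r => exact fun _ => Subalgebra.algebraMap_mem _ r
  | add y z hy hz ihy ihz =>
      exact fun _ => add_mem (ihy (XA_le K N hy)) (ihz (XA_le K N hz))
  | mul y z hy hz ihy ihz =>
      intro h
      have e : (⟨y * z, h⟩ : XF K N) = (⟨y, XA_le K N hy⟩ : XF K N) * ⟨z, XA_le K N hz⟩ :=
        Subtype.ext rfl
      rw [e]
      exact mul_mem (ihy (XA_le K N hy)) (ihz (XA_le K N hz))

omit [NeZero N] in
theorem coe_mem_XA {x : XF K N} (hx : x ∈ Algebra.adjoin K (fGens K N)) :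
    (x : LaurentSeries K) ∈ XA K N := by
  have : Algebra.adjoin K (fGens K N) ≤ (XA K N).comap (XF K N).val :=
    Algebra.adjoin_le fun y hy => Algebra.subset_adjoin hy
  exact this hx

theorem isFunctionField_and_finrank (κ : K →+* ℂ) :
    FLTAgent.Curves.IsFunctionField K (XF K N) ∧
      Module.finrank K⟮jF K N⟯ (XF K N) = Fintype.card (Cos N) := by
  haveI : CharZero K := charZero_of_injective_algebraMap (algebraMap ℚ K).injective
  refine degree_core (G := fGens K N) (transcendental_jF κ)
    ((finite_xGens (K := K) (N := N)).preimage Subtype.val_injective.injOn)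
    (mem_adjoin_fGens (jA K N).2) (fun f => ?_) (fun a ha => ?_) (cuspEmb κ)
    (cuspEmb_injective κ) (fun q q' c => by rw [cuspEmb_algebraMap, cuspEmb_algebraMap])
    (fun q q' => by rw [cuspEmb_jF, cuspEmb_jF])
  · obtain ⟨a, b, e⟩ := exists_incA_div f
    exact ⟨_, mem_adjoin_fGens (x := incA K N a) a.2, _, mem_adjoin_fGens (x := incA K N b) b.2, e⟩
  · obtain ⟨P, hP⟩ := exists_relation κ ⟨_, coe_mem_XA ha⟩
    refine ⟨P, Subtype.val_injective ?_⟩
    simp only [AddMemClass.coe_add, SubmonoidClass.coe_pow, AddSubmonoidClass.coe_finsetSum,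
      MulMemClass.coe_mul, ZeroMemClass.coe_zero]
    refine Eq.trans ?_ hP
    refine congrArg _ (Finset.sum_congr rfl fun m _ => ?_)
    congr 1
    exact (Polynomial.aeval_algHom_apply (XF K N).val (jF K N) (P m)).symm

end FLTAgent.X0Fn
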