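import Fermat.Agent.X0Fn.Expansion
import Fermat.Agent.ES.JInjective
import Fermat.Prelude.Def_ModularCurve_X0
import Fermat.Prelude.Def_ModularCurve_LaurentCoeff

/-!
# The expansion of the analytic modular invariant is the formal one
-/

set_option autoImplicit false

noncomputable section

open UpperHalfPlane Filter Complex Function
open scoped Topology Manifold PowerSeries.WithPiTopology

namespace FLTAgent.X0Fn

open FLTAgent.ES (e4 dlt jfun)

instance : Fact ((0 : ℝ) < 1) := ⟨one_pos⟩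

/-! ### Euler's product -/

/-- Euler's product as a function on the disc. -/
def eulerFun : ℂ → ℂ := fun q => ∏' n : ℕ, (1 - q ^ (n + 1))

theorem differentiableOn_eulerFun : DifferentiableOn ℂ eulerFun (Metric.ball 0 1) :=
  ModularForm.differentiableOn_tprod_one_sub_pow

theorem tendstoLocallyUniformlyOn_iteratedDeriv {f : ℂ → ℂ} {F : Finset ℕ → ℂ → ℂ}
    {U : Set ℂ} (hU : IsOpen U) (hF : ∀ s, DifferentiableOn ℂ (F s) U)
    (h : TendstoLocallyUniformlyOn F f atTop U) (k : ℕ) :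
    TendstoLocallyUniformlyOn (fun s => iteratedDeriv k (F s)) (iteratedDeriv k f) atTop U ∧
      ∀ s, DifferentiableOn ℂ (iteratedDeriv k (F s)) U := by
  induction k with
  | zero => exact ⟨by simpa using h, fun s => by simpa using hF s⟩
  | succ k ih =>
      constructor
      · simp only [iteratedDeriv_succ]
        exact ih.1.deriv (Eventually.of_forall ih.2) hU
      · intro s
        rw [iteratedDeriv_succ]
        exact (ih.2 s).deriv hU

theorem iteratedDeriv_eval (p : Polynomial ℂ) (k : ℕ) :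
    iteratedDeriv k (fun q => p.eval q) 0 = (k.factorial : ℂ) * p.coeff k := by
  have h : ∀ k, iteratedDeriv k (fun q => p.eval q) =
      fun q => (Polynomial.derivative^[k] p).eval q := by
    intro k
    induction k with
    | zero => simp
    | succ k ih =>
        funext q
        rw [iteratedDeriv_succ, ih, iterate_succ_apply', Polynomial.deriv]
  rw [h]
  simp only [← Polynomial.coeff_zero_eq_eval_zero, Polynomial.coeff_iterate_derivative, zero_add,
    Nat.descFactorial_self, nsmul_eq_mul]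

/-- The finite partial products. -/
def eulerPoly (s : Finset ℕ) : Polynomial ℤ := ∏ i ∈ s, (1 - Polynomial.X ^ (i + 1))

theorem iteratedDeriv_eulerFun (k : ℕ) :
    iteratedDeriv k eulerFun 0 =
      (k.factorial : ℂ) * ((PowerSeries.coeff k ModularCurve.etaProd : ℤ) : ℂ) := by
  have hF : ∀ s : Finset ℕ, (fun q : ℂ => ((eulerPoly s).map (Int.castRingHom ℂ)).eval q) =
      fun q => ∏ i ∈ s, (1 - q ^ (i + 1)) := fun s => by
    funext q
    simp [eulerPoly, Polynomial.map_prod, Polynomial.eval_prod]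
  have hlim : TendstoLocallyUniformlyOn
      (fun (s : Finset ℕ) (q : ℂ) => ((eulerPoly s).map (Int.castRingHom ℂ)).eval q) eulerFun atTop
      (Metric.ball 0 1) := by
    rw [show (fun (s : Finset ℕ) (q : ℂ) => ((eulerPoly s).map (Int.castRingHom ℂ)).eval q) =
      fun s q => ∏ i ∈ s, (1 - q ^ (i + 1)) from funext hF]
    exact hasProdLocallyUniformlyOn_iff_tendstoLocallyUniformlyOn.1
      ModularForm.multipliableLocallyUniformlyOn_one_sub_pow.hasProdLocallyUniformlyOn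
  have h1 := ((tendstoLocallyUniformlyOn_iteratedDeriv Metric.isOpen_ball
    (fun s => (Polynomial.differentiable _).differentiableOn) hlim k).1).tendsto_at
      (Metric.mem_ball_self one_pos)
  simp only [iteratedDeriv_eval, Polynomial.coeff_map, Int.coe_castRingHom] at h1
  have h2 : Tendsto (fun s : Finset ℕ => (eulerPoly s).coeff k) atTop
      (𝓝 (PowerSeries.coeff k ModularCurve.etaProd)) := by
    have hp : Tendsto (fun s : Finset ℕ => ∏ i ∈ s, ((1 : PowerSeries ℤ) - PowerSeries.X ^ (i + 1)))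
        atTop (𝓝 ModularCurve.etaProd) :=
      (PowerSeries.WithPiTopology.multipliable_one_sub_X_pow ℤ).hasProd
    have := (PowerSeries.WithPiTopology.tendsto_iff_coeff_tendsto ℤ _ _ _).1 hp k
    refine this.congr fun s => ?_
    rw [← Polynomial.coeff_coe, eulerPoly, ← Polynomial.coeToPowerSeries.ringHom_apply, map_prod Polynomial.coeToPowerSeries.ringHom]
    congr 1
    exact Finset.prod_congr rfl fun i _ => by simp [Polynomial.coeToPowerSeries.ringHom_apply]
  have h3 : Tendsto (fun s : Finset ℕ => (k.factorial : ℂ) * ((eulerPoly s).coeff k : ℂ)) atTop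
      (𝓝 ((k.factorial : ℂ) * ((PowerSeries.coeff k ModularCurve.etaProd : ℤ) : ℂ))) :=
    ((continuous_of_discreteTopology (f := fun z : ℤ => (z : ℂ))).continuousAt.tendsto.comp
      h2).const_mul _
  exact tendsto_nhds_unique h1 h3

/-! ### Per-elements -/

/-- Euler's product on the half plane. -/
def eulerH : ℍ → ℂ := fun τ => eulerFun (qh 1 τ)

theorem hasSum_eulerH (τ : ℍ) :
    HasSum (fun n => PowerSeries.coeff n (ModularCurve.etaProd.map (Int.castRingHom ℂ)) •
      Periodic.qParam 1 (τ : ℂ) ^ n) (eulerH τ) := by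
  have hq : ‖Periodic.qParam 1 (τ : ℂ)‖ < 1 := Periodic.norm_qParam_lt_one one_pos τ.im_pos
  have h := Complex.hasSum_taylorSeries_on_ball (c := (0 : ℂ)) (r := 1)
    (f := eulerFun) differentiableOn_eulerFun (z := Periodic.qParam 1 (τ : ℂ)) (by simpa using hq)
  refine h.congr_fun fun n => ?_
  rw [PowerSeries.coeff_map, iteratedDeriv_eulerFun, sub_zero]
  have : (n.factorial : ℂ) ≠ 0 := by exact_mod_cast n.factorial_ne_zero
  simp only [Int.coe_castRingHom, smul_eq_mul]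
  field_simp

theorem eulerH_mem_Per : eulerH ∈ Per 1 := by
  have hper : Periodic (eulerH ∘ ofComplex) (1 : ℝ) := fun z => by
    have := periodic_qh (h := (1 : ℝ)) z
    simp only [comp_apply, eulerH] at this ⊢
    rw [this]
  refine ⟨?_, hper, isBoundedAtImInfty_of_hasSum_qExpansion one_pos hasSum_eulerH⟩
  rw [UpperHalfPlane.mdifferentiable_iff]
  exact differentiableOn_eulerFun.comp
    (UpperHalfPlane.mdifferentiable_iff.1 (mdiff_qh (h := (1 : ℝ))))
    fun z hz => mem_ball_zero_iff.2 (Periodic.norm_qParam_lt_one one_pos (ofComplex z).im_pos)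

theorem dlt_eq_euler (τ : ℍ) : dlt τ = qh 1 τ * eulerH τ ^ 24 := by
  rw [dlt, ModularForm.discriminant_eq_q_prod, qh, eulerH, eulerFun]
  congr 1
  simp only [qh]
  rw [← (ModularForm.multipliable_one_sub_pow
    (Periodic.norm_qParam_lt_one one_pos τ.im_pos)).tprod_pow]


theorem eulerH_ne_zero (τ : ℍ) : eulerH τ ^ 24 ≠ 0 := fun h =>
  FLTAgent.ES.dlt_ne_zero τ (by rw [dlt_eq_euler, h, mul_zero])

theorem hasSum_e4 (τ : ℍ) :
    HasSum (fun n => PowerSeries.coeff n (ModularCurve.eisenstein4.map (Int.castRingHom ℂ)) •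
      Periodic.qParam 1 (τ : ℂ) ^ n) (e4 τ) := by
  have h4 := (FLTAgent.ES.e4_mem (Γ := ⊤))
  have hs := hasSum_qExpansion one_pos (FLTAgent.ES.top_periodic h4) h4.2.1
    (FLTAgent.ES.top_bdd h4) τ
  refine hs.congr_fun fun n => ?_
  congr 1
  rw [show qExpansion 1 e4 = qExpansion 1 (ModularForm.E₄ : ℍ → ℂ) from rfl,
    EisensteinSeries.E_qExpansion_coeff _ ⟨2, rfl⟩, show bernoulli 4 = -1 / 30 by decide +kernel,
    PowerSeries.coeff_map, ModularCurve.eisenstein4, PowerSeries.coeff_mk]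
  split_ifs
  · simp
  · simp only [ArithmeticFunction.sigma_apply, Int.coe_castRingHom]
    push_cast
    norm_num

theorem e4_mem_Per : e4 ∈ Per 1 :=
  ⟨(FLTAgent.ES.e4_mem (Γ := ⊤)).2.1, FLTAgent.ES.top_periodic FLTAgent.ES.e4_mem,
    FLTAgent.ES.top_bdd FLTAgent.ES.e4_mem⟩

theorem jfun_mul_qh (τ : ℍ) : jfun τ * qh 1 τ = e4 τ ^ 3 / eulerH τ ^ 24 := by
  rw [jfun, dlt_eq_euler]
  have := qh_ne_zero (h := 1) τ
  have := eulerH_ne_zero τ
  field_simp

theorem jq_mem_Per : jfun * qh 1 ∈ Per 1 := by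
  have he : jfun * qh 1 = fun τ => e4 τ ^ 3 / eulerH τ ^ 24 := funext jfun_mul_qh
  refine ⟨?_, ?_, ?_⟩
  · rw [UpperHalfPlane.mdifferentiable_iff]
    exact (UpperHalfPlane.mdifferentiable_iff.1 FLTAgent.ES.mdiff_jfun).mul
      (UpperHalfPlane.mdifferentiable_iff.1 (mdiff_qh (h := (1 : ℝ))))
  · rw [he]
    intro z
    have h1 := e4_mem_Per.2.1 z
    have h2 := eulerH_mem_Per.2.1 z
    simp only [comp_apply] at h1 h2 ⊢
    rw [h1, h2]
  · rw [he]
    have hlim : Tendsto (fun τ : ℍ => eulerH τ ^ 24) atImInfty (𝓝 1) := by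
      refine ModularForm.tendsto_atImInfty_tprod_one_sub_eta_q_pow.congr fun τ => ?_
      have h := dlt_eq_euler τ
      rw [dlt, ModularForm.discriminant_eq_q_prod, qh] at h
      exact mul_left_cancel₀ (Periodic.qParam_ne_zero _) h
    have h1 := (FLTAgent.ES.e4_tendsto.pow 3).div hlim one_ne_zero
    exact h1.isBigO_one ℝ

/-- The series of `j q`. -/
def jNumC : PowerSeries ℂ := ModularCurve.jNum.map (Int.castRingHom ℂ)

theorem qExp_jq : qExp 1 ⟨jfun * qh 1, jq_mem_Per⟩ = jNumC := by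
  set J := qExp 1 ⟨jfun * qh 1, jq_mem_Per⟩
  set E := ModularCurve.eisenstein4.map (Int.castRingHom ℂ) with hE
  set P := ModularCurve.etaProd.map (Int.castRingHom ℂ) with hP
  have h1 : qExp 1 ⟨e4, e4_mem_Per⟩ = E := qExp_eq_of_hasSum hasSum_e4
  have h2 : qExp 1 ⟨eulerH, eulerH_mem_Per⟩ = P := qExp_eq_of_hasSum hasSum_eulerH
  have h3 : J * P ^ 24 = E ^ 3 := by
    rw [← h1, ← h2, ← map_pow, ← map_pow, ← map_mul]
    congr 1
    apply Subtype.ext
    funext τ
    show jfun τ * qh 1 τ * eulerH τ ^ 24 = e4 τ ^ 3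
    rw [jfun_mul_qh, div_mul_cancel₀ _ (eulerH_ne_zero τ)]
  have h4 : jNumC * P ^ 24 = E ^ 3 := by
    rw [jNumC, hP, hE, ← map_pow, ← map_pow, ← map_mul]
    congr 1
    rw [ModularCurve.jNum, mul_assoc, ← ModularCurve.dedekindEtaUnit, mul_comm ModularCurve.dedekindEtaUnitInv,
      ModularCurve.dedekindEtaUnit_mul_inv, mul_one]
  have hP0 : P ^ 24 ≠ 0 := pow_ne_zero _ fun h => by
    have := congrArg PowerSeries.constantCoeff h
    rw [hP, ← PowerSeries.coeff_zero_eq_constantCoeff_apply, PowerSeries.coeff_map,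
      PowerSeries.coeff_zero_eq_constantCoeff_apply, ModularCurve.constantCoeff_etaProd] at this
    simp at this
  exact mul_right_cancel₀ hP0 (h3.trans h4.symm)

/-! ### Change of variable -/

variable {N : ℕ} [NeZero N]

instance : Fact ((0 : ℝ) < (N : ℝ)) := ⟨by exact_mod_cast Nat.pos_of_ne_zero (NeZero.ne N)⟩

/-- The stretch `c_n ζ^n` in degree `M n`. -/
def stretch (ζ : ℂ) (M : ℕ) (S : PowerSeries ℂ) : PowerSeries ℂ :=
  PowerSeries.mk fun k => if M ∣ k then PowerSeries.coeff (k / M) S * ζ ^ (k / M) else 0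

omit [NeZero N] in
theorem hasSum_stretch {f : Per 1} {z : ℍ → ℍ} {ζ : ℂ} {M : ℕ} (hM : M ≠ 0)
    (hq : ∀ τ, qh 1 (z τ) = ζ * qh (N : ℝ) τ ^ M) (τ : ℍ) :
    HasSum (fun k => PowerSeries.coeff k (stretch ζ M (qExp 1 f)) •
      Periodic.qParam (N : ℝ) (τ : ℂ) ^ k) ((f : ℍ → ℂ) (z τ)) := by
  have hs := hasSum_qExp f (z τ)
  have hinj : Injective fun m : ℕ => M * m := fun a b hab => mul_left_cancel₀ hM hab
  rw [← hinj.hasSum_iff]
  · refine hs.congr_fun fun m => ?_
    simp only [comp_apply, stretch, PowerSeries.coeff_mk, dvd_mul_right, if_true,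
      Nat.mul_div_cancel_left _ (Nat.pos_of_ne_zero hM)]
    have := hq τ
    simp only [qh] at this
    rw [this, mul_pow, ← pow_mul, smul_eq_mul, smul_eq_mul, mul_assoc]
  · intro k hk
    have : ¬ M ∣ k := fun h => hk ⟨k / M, Nat.mul_div_cancel' h⟩
    simp [stretch, this]

theorem comp_mem_Per {f : ℍ → ℂ} (hf : f ∈ Per 1) {z : ℍ → ℍ} (hz : MDiff z) {ζ : ℂ} {M : ℕ}
    (hM : M ≠ 0) (hq : ∀ τ, qh 1 (z τ) = ζ * qh (N : ℝ) τ ^ M) : f ∘ z ∈ Per (N : ℝ) := by
  have hs := fun τ => hasSum_stretch (f := ⟨f, hf⟩) hM hq τ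
  refine ⟨hf.1.comp hz, fun w => ?_, isBoundedAtImInfty_of_hasSum_qExpansion hpos hs⟩
  by_cases hw : 0 < w.im
  · have hw1 : 0 < (w + ((N : ℝ) : ℂ)).im := by simpa using hw
    have h1 := hs ⟨w + ((N : ℝ) : ℂ), hw1⟩
    have h2 := periodic_qh (h := (N : ℝ)) w
    simp only [comp_apply, qh, ofComplex_apply_of_im_pos hw, ofComplex_apply_of_im_pos hw1] at h2
    simp only [comp_apply, ofComplex_apply_of_im_pos hw, ofComplex_apply_of_im_pos hw1]
    refine h1.unique ?_
    simp only [h2]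
    exact hs ⟨w, hw⟩
  · have hw1 : (w + ((N : ℝ) : ℂ)).im ≤ 0 := by simpa using not_lt.mp hw
    simp only [comp_apply, ofComplex_apply_of_im_nonpos hw1,
      ofComplex_apply_of_im_nonpos (not_lt.mp hw)]

theorem jfun_comp_mem {z : ℍ → ℍ} (hz : MDiff z) {ζ : ℂ} (hζ : ζ ≠ 0) {M : ℕ}
    (hM : M ≠ 0) (hq : ∀ τ, qh 1 (z τ) = ζ * qh (N : ℝ) τ ^ M) :
    jfun ∘ z * qh (N : ℝ) ^ M ∈ Per (N : ℝ) := by
  have h := comp_mem_Per jq_mem_Per hz hM hq
  have he : jfun ∘ z * qh (N : ℝ) ^ M = algebraMap ℂ (ℍ → ℂ) ζ⁻¹ * ((jfun * qh 1) ∘ z) := by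
    funext τ
    simp only [Pi.mul_apply, Pi.pow_apply, comp_apply, Pi.algebraMap_apply, Algebra.algebraMap_self,
      RingHom.id_apply, hq τ]
    field_simp
  rw [he]
  exact mul_mem (Subalgebra.algebraMap_mem _ _) h

theorem jfun_comp_mem_PerL {z : ℍ → ℍ} (hz : MDiff z) {ζ : ℂ} (hζ : ζ ≠ 0) {M : ℕ}
    (hM : M ≠ 0) (hq : ∀ τ, qh 1 (z τ) = ζ * qh (N : ℝ) τ ^ M) :
    jfun ∘ z ∈ PerL (N : ℝ) := ⟨M, jfun_comp_mem hz hζ hM hq⟩

theorem expL_jfun_comp {z : ℍ → ℍ} (hz : MDiff z) {ζ : ℂ} (hζ : ζ ≠ 0) {M : ℕ}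
    (hM : M ≠ 0) (hq : ∀ τ, qh 1 (z τ) = ζ * qh (N : ℝ) τ ^ M) :
    expL (N : ℝ) ⟨jfun ∘ z, jfun_comp_mem_PerL hz hζ hM hq⟩ =
      HahnSeries.single (-(M : ℤ)) ζ⁻¹ *
        HahnSeries.ofPowerSeries ℤ ℂ (stretch ζ M jNumC) := by
  rw [expL_eq _ (jfun_comp_mem hz hζ hM hq)]
  have h := comp_mem_Per jq_mem_Per hz hM hq
  have he : (⟨_, jfun_comp_mem hz hζ hM hq⟩ : Per (N : ℝ)) = algebraMap ℂ _ ζ⁻¹ * ⟨_, h⟩ := by
    apply Subtype.ext
    funext τ
    show jfun (z τ) * qh (N : ℝ) τ ^ M = ζ⁻¹ * (jfun (z τ) * qh 1 (z τ))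
    rw [hq τ]
    field_simp
  rw [he, map_mul, AlgHom.commutes, qExp_eq_of_hasSum (f := ⟨_, h⟩)
    (fun τ => hasSum_stretch (f := ⟨_, jq_mem_Per⟩) hM hq τ), qExp_jq, map_mul,
    PowerSeries.algebraMap_apply, HahnSeries.ofPowerSeries_C, Algebra.algebraMap_self, RingHom.id_apply,
    ← mul_assoc, HahnSeries.C_apply, HahnSeries.single_mul_single, add_zero, one_mul]

theorem qExpand_jq (d : ℕ) [NeZero d] :
    ModularCurve.coeffMap (algebraMap ℚ ℂ) (ModularCurve.qExpand ℚ d ModularCurve.jq) =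
      HahnSeries.single (-(d : ℤ)) 1 *
        HahnSeries.ofPowerSeries ℤ ℂ (stretch 1 d jNumC) := by
  have hd : (d : ℤ) ≠ 0 := by exact_mod_cast NeZero.ne d
  rw [ModularCurve.jq, map_mul, map_mul, ModularCurve.qExpand_single, ModularCurve.coeffMap_single,
    map_one, mul_neg, mul_one]
  congr 1
  ext k
  rw [ModularCurve.coeffMap_coeff]
  rcases lt_or_ge k 0 with hk | hk
  · rw [ModularCurve.ofPowerSeries_coeff_of_neg _ hk]
    by_cases hdk : (d : ℤ) ∣ k
    · obtain ⟨c, rfl⟩ := hdk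
      rw [ModularCurve.qExpand_coeff_mul, ModularCurve.ofPowerSeries_coeff_of_neg _ (by
        rcases lt_or_ge c 0 with h | h
        · exact h
        · have : (0 : ℤ) ≤ (d : ℤ) * c := by positivity
          omega), map_zero]
    · rw [ModularCurve.qExpand_coeff_of_not_dvd _ _ hdk, map_zero]
  · obtain ⟨n, rfl⟩ := Int.eq_ofNat_of_zero_le hk
    rw [HahnSeries.ofPowerSeries_apply_coeff, stretch, PowerSeries.coeff_mk, one_pow, mul_one]
    split_ifs with h
    · obtain ⟨c, rfl⟩ := h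
      rw [Nat.cast_mul, ModularCurve.qExpand_coeff_mul, HahnSeries.ofPowerSeries_apply_coeff,
        Nat.mul_div_cancel_left _ (Nat.pos_of_ne_zero (NeZero.ne d))]
      simp [jNumC, ModularCurve.jNumQ, PowerSeries.coeff_map]
    · rw [ModularCurve.qExpand_coeff_of_not_dvd _ _ (by exact_mod_cast h), map_zero]

end FLTAgent.X0Fn
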