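import Fermat.Agent.X0Fn.Orders
import Fermat.Agent.Curves.Genus
import Fermat.Agent.ES.CuspOrbits

/-!
# The genus of the function field of `X₀(N)`
-/

set_option autoImplicit false

noncomputable section

open UpperHalfPlane CongruenceSubgroup Filter Complex Function IntermediateField
open scoped Topology Manifold MatrixGroups ModularForm

namespace FLTAgent.X0Fn

open FLTAgent.Curves AlgebraicCurve
open FLTAgent.ES (jfun e4 e6 dlt rhoPt fixedFun)

/-! ### Orbits -/

theorem sum_ord_sub_one {K F : Type*} [Field K] [Field F] [Algebra K F] [IsAlgClosed K]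
    [IsFunctionField K F] {C : Type*} [Field C] [CharZero C] {κ : K →+* C}
    {I : Type*} [Fintype I] [Nonempty I] (φ : I → F →+* LaurentSeries C)
    (hφ : ∀ i, ∀ a : K, φ i (algebraMap K F a) = HahnSeries.C (κ a)) (hinj : Injective φ)
    {t : F} (ht : Transcendental K t) (hI : Fintype.card I = Module.finrank K⟮t⟯ F)
    {T : LaurentSeries C} (hT : ∀ i, φ i t = T) (hm : 0 < T.order)
    (σ : Equiv.Perm I) (hσ : ∀ i f, (φ (σ i) f).order = (φ i f).order)
    (hfix : ∀ i, ∀ d : ℕ, (σ ^ d) i = i → ∀ f, T.order ∣ (d : ℤ) * (φ i f).order) :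
    ∑ v ∈ zerosOf K t, (v.ord t - 1) =
      (Fintype.card I : ℤ) - Nat.card (Quotient (Equiv.Perm.SameCycle.setoid σ)) := by
  classical
  obtain ⟨P, hP0, hPsurj, hPiff⟩ := exists_place_map φ hφ hinj hI hT hm σ hσ hfix
  let f : Quotient (Equiv.Perm.SameCycle.setoid σ) → {v // v ∈ zerosOf K t} :=
    Quotient.lift (fun i => ⟨P i, mem_zerosOf.2 (hP0 i)⟩) fun i j h => Subtype.ext ((hPiff i j).2 h)
  have hf : Bijective f := by
    refine ⟨fun x y => ?_, fun v => ?_⟩
    · induction x using Quotient.inductionOn with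
      | h i =>
        induction y using Quotient.inductionOn with
        | h j => exact fun h => Quotient.sound ((hPiff i j).1 (congrArg Subtype.val h))
    · obtain ⟨i, hi⟩ := hPsurj v.1 (mem_zerosOf.1 v.2)
      exact ⟨Quotient.mk _ i, Subtype.ext hi⟩
  rw [Nat.card_congr (Equiv.ofBijective f hf), Nat.card_eq_finsetCard, Finset.sum_sub_distrib,
    sum_ord_zerosOf ht, hI]
  simp

theorem card_orbits_eq_finrank {Γ : Subgroup SL(2, ℤ)} [Fintype (SL(2, ℤ) ⧸ Γ)] (g : SL(2, ℤ)) :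
    Nat.card (Quotient (Equiv.Perm.SameCycle.setoid (MulAction.toPerm g : Equiv.Perm (SL(2, ℤ) ⧸ Γ)))) =
      Module.finrank ℂ (fixedFun Γ g) := by
  classical
  set σ : Equiv.Perm (SL(2, ℤ) ⧸ Γ) := MulAction.toPerm g
  haveI := Fintype.ofFinite (Quotient (Equiv.Perm.SameCycle.setoid σ))
  let L : (Quotient (Equiv.Perm.SameCycle.setoid σ) → ℂ) →ₗ[ℂ] (SL(2, ℤ) ⧸ Γ → ℂ) :=
    LinearMap.funLeft ℂ ℂ (Quotient.mk _)
  have hinj : Injective L :=
    LinearMap.funLeft_injective_of_surjective ℂ ℂ _ Quotient.mk_surjective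
  have hrange : LinearMap.range L = fixedFun Γ g := by
    ext v
    rw [FLTAgent.ES.mem_fixedFun]
    constructor
    · rintro ⟨w, rfl⟩ x
      exact congrArg w (Quotient.sound ((Equiv.Perm.sameCycle_apply_right (f := σ)).2 (Equiv.Perm.SameCycle.refl σ x)).symm)
    · intro hv
      refine ⟨Quotient.lift v fun x y (h : σ.SameCycle x y) => ?_, rfl⟩
      obtain ⟨d, hd⟩ := h.exists_nat_pow_eq
      subst hd
      clear h
      induction d with
      | zero => simp
      | succ d ih => rw [ih, pow_succ', Equiv.Perm.mul_apply]; exact (hv _).symm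
  rw [← hrange, LinearMap.finrank_range_of_inj hinj, Module.finrank_pi, Nat.card_eq_fintype_card]

/-! ### Leading terms of the invariant -/

theorem hasLead_of_eq_pow_mul {z₀ : ℂ} {f h u : ℂ → ℂ} (k : ℕ) (hh : AnalyticAt ℂ h z₀)
    (h0 : h z₀ = 0) (hd : deriv h z₀ ≠ 0) (hu : AnalyticAt ℂ u z₀) (hu0 : u z₀ ≠ 0)
    (he : ∀ᶠ z in 𝓝 z₀, f z = h z ^ k * u z) :
    HasLead z₀ f k (deriv h z₀ ^ k * u z₀) := by
  obtain ⟨p, hp⟩ := hh
  have hds : AnalyticAt ℂ (dslope h z₀) z₀ := ⟨_, hp.has_fpower_series_dslope_fslope⟩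
  refine ⟨mul_ne_zero (pow_ne_zero _ hd) hu0, fun z => dslope h z₀ z ^ k * u z,
    (hds.pow k).mul hu, by simp [dslope_same], ?_⟩
  filter_upwards [he] with z hz
  rw [hz]
  have h2 : h z = (z - z₀) * dslope h z₀ z := by
    have := sub_smul_dslope h z₀ z
    rw [smul_eq_mul, h0, sub_zero] at this
    exact this.symm
  rw [h2, mul_pow]
  ring

theorem eventually_ofComplex (τ : ℍ) : ∀ᶠ z in 𝓝 (τ : ℂ), 0 < z.im :=
  isOpen_upperHalfPlaneSet.mem_nhds τ.im_pos

/-- The function `j - c`. -/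
def jShift (c : ℂ) : Hol := ⟨jfun - algebraMap ℂ (ℍ → ℂ) c,
  sub_mem FLTAgent.ES.mdiff_jfun (Hol.algebraMap_mem c)⟩

theorem order_taylor_generic {τ : ℍ} (h : jfun τ ≠ 0 ∧ jfun τ ≠ 1728) :
    (taylorAt τ (jShift (jfun τ))).order = 1 := by
  have han := analyticAt_of_hol (jShift (jfun τ)).2 τ.im_pos
  have hd : deriv ((jShift (jfun τ) : ℍ → ℂ) ∘ ofComplex) τ ≠ 0 := by
    have e : ((jShift (jfun τ) : ℍ → ℂ) ∘ ofComplex) = fun z => (jfun ∘ ofComplex) z - jfun τ := rfl
    rw [e, deriv_sub_const]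
    exact FLTAgent.ES.deriv_jfun_ne_zero h
  exact (hasLead_of_eq_pow_mul 1 han (by simp [jShift, ofComplex_apply]) hd (u := fun _ => 1)
    analyticAt_const one_ne_zero (Eventually.of_forall fun z => by simp)).tay_order.1

theorem order_taylor_rho : (taylorAt rhoPt (jShift 0)).order = 3 := by
  have h4 := analyticAt_of_hol (FLTAgent.ES.e4_mem (Γ := ⊤)).2.1 rhoPt.im_pos
  have hd := analyticAt_of_hol (FLTAgent.ES.dlt_mem (Γ := ⊤)).2.1 rhoPt.im_pos
  have h0 : (e4 ∘ ofComplex) (rhoPt : ℂ) = 0 := by simp [ofComplex_apply, FLTAgent.ES.e4_rho]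
  have hne : (dlt ∘ ofComplex) (rhoPt : ℂ) ≠ 0 := by
    simpa [ofComplex_apply] using FLTAgent.ES.dlt_ne_zero rhoPt
  have h6 := (FLTAgent.ES.e4_ne_or_e6_ne rhoPt).resolve_left (not_not.2 FLTAgent.ES.e4_rho)
  have hd4 : deriv (e4 ∘ ofComplex) (rhoPt : ℂ) ≠ 0 := by
    simp [FLTAgent.ES.deriv_e4, FLTAgent.ES.e4_rho, h6, Real.pi_ne_zero]
  exact (hasLead_of_eq_pow_mul (f := (jShift 0 : ℍ → ℂ) ∘ ofComplex) 3 h4 h0 hd4 (hd.inv hne)
    (inv_ne_zero hne) (Eventually.of_forall fun z => by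
      simp [jShift, jfun, div_eq_mul_inv])).tay_order.1

theorem order_taylor_I : (taylorAt UpperHalfPlane.I (jShift 1728)).order = 2 := by
  have h6 := analyticAt_of_hol (FLTAgent.ES.e6_mem (Γ := ⊤)).2.1 UpperHalfPlane.I.im_pos
  have hd := analyticAt_of_hol (FLTAgent.ES.dlt_mem (Γ := ⊤)).2.1 UpperHalfPlane.I.im_pos
  have h0 : (e6 ∘ ofComplex) (UpperHalfPlane.I : ℂ) = 0 := by
    simp only [comp_apply, ofComplex_apply, FLTAgent.ES.e6_I]
  have hne : (dlt ∘ ofComplex) (UpperHalfPlane.I : ℂ) ≠ 0 := by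
    simp only [comp_apply, ofComplex_apply]; exact FLTAgent.ES.dlt_ne_zero _
  have h4 := (FLTAgent.ES.e4_ne_or_e6_ne UpperHalfPlane.I).resolve_right (not_not.2 FLTAgent.ES.e6_I)
  have hd6 : deriv (e6 ∘ ofComplex) (UpperHalfPlane.I : ℂ) ≠ 0 := by
    rw [FLTAgent.ES.deriv_e6, FLTAgent.ES.e6_I]
    simp [h4, Real.pi_ne_zero]
  exact (hasLead_of_eq_pow_mul (f := (jShift 1728 : ℍ → ℂ) ∘ ofComplex) 2 h6 h0 hd6 (hd.inv hne)
    (inv_ne_zero hne) (Eventually.of_forall fun z => by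
      show jfun (ofComplex z) - 1728 = _
      rw [FLTAgent.ES.jfun_sub_1728, div_eq_mul_inv]
      rfl)).tay_order.1

theorem exists_jfun_eq (c : ℂ) : ∃ τ : ℍ, jfun τ = c := by
  by_contra hne
  simp only [not_exists] at hne
  set f : ℍ → ℂ := fun τ => (jfun τ - c)⁻¹ with hf
  have hmd : MDiff f := by
    rw [UpperHalfPlane.mdifferentiable_iff]
    have := ((UpperHalfPlane.mdifferentiable_iff.1 FLTAgent.ES.mdiff_jfun).sub_const c).inv
      (fun z _ => sub_ne_zero.2 (hne _))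
    exact this
  have hlim : Tendsto f atImInfty (𝓝 0) := by
    have hden : Tendsto (fun τ => e4 τ ^ 3 - c * dlt τ) atImInfty (𝓝 1) := by
      simpa using (FLTAgent.ES.e4_tendsto.pow 3).sub (FLTAgent.ES.dlt_tendsto.const_mul c)
    have := FLTAgent.ES.dlt_tendsto.div hden one_ne_zero
    simp only [zero_div] at this
    refine this.congr fun τ => ?_
    simp only [hf, jfun, Pi.div_apply]
    rw [div_sub' (FLTAgent.ES.dlt_ne_zero τ), inv_div, mul_comm (dlt τ) c]
  have hinv : ∀ g : SL(2, ℤ), f ∣[(0 : ℤ)] g = f := fun g => by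
    funext τ
    rw [ModularForm.SL_slash_apply, neg_zero, zpow_zero, mul_one]
    show (jfun (g • τ) - c)⁻¹ = _
    rw [FLTAgent.ES.jfun_smul]
  obtain ⟨d, hd⟩ := FLTAgent.ES.levelOne_zero (f := f)
    ⟨fun g _ => hinv g, hmd, fun g => by rw [hinv]; exact hlim.isBigO_one ℝ⟩
  have hd0 : d = 0 := by
    have : Tendsto f atImInfty (𝓝 d) := by rw [hd]; simpa [Pi.smul_def] using tendsto_const_nhds
    exact tendsto_nhds_unique this hlim
  have := congrFun hd UpperHalfPlane.I
  simp [hd0, hf, sub_eq_zero, hne UpperHalfPlane.I] at this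

/-! ### The count -/

variable {K : Type*} [Field K] [Algebra ℚ K] [IsAlgClosed K] {N : ℕ} [NeZero N] (κ : K →+* ℂ)

theorem point_T (τ : ℍ) (q : Cos N) (a : K) :
    pointEmb κ τ q (jF K N - algebraMap K (XF K N) a) =
      HahnSeries.ofPowerSeries ℤ ℂ (taylorAt τ (jShift (κ a))) := by
  rw [map_sub, pointEmb_algebraMap, jF, pointEmb_incA, pointHom_apply, ← HahnSeries.ofPowerSeries_C,
    ← map_sub]
  congr 1
  have e : jShift (κ a) =
      (⟨trans q (toW κ (jA K N)), trans_mem_Hol q _⟩ : Hol) - algebraMap ℂ Hol (κ a) :=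
    Subtype.ext (show jfun - algebraMap ℂ (ℍ → ℂ) (κ a) = trans q (toW κ (jA K N)) - _ from
      congrArg (· - _) (trans_toW_jA κ q).symm)
  rw [e, map_sub, AlgHom.commutes, PowerSeries.algebraMap_apply, Algebra.algebraMap_self,
    RingHom.id_apply]

variable [IsFunctionField K (XF K N)]

theorem finrank_shift (κ : K →+* ℂ) (a : K) :
    Fintype.card (Cos N) = Module.finrank K⟮jF K N - algebraMap K (XF K N) a⟯ (XF K N) := by
  rw [adjoin_simple_sub_eq]
  exact (isFunctionField_and_finrank κ).2.symm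

theorem sum_point (a : K) (τ : ℍ) (g : SL(2, ℤ)) (hg : g • τ = τ) (m : ℕ) (hm : 0 < m)
    (hord : (taylorAt τ (jShift (κ a))).order = m)
    (hμ : IsPrimitiveRoot (denom g (τ : ℂ) ^ (-2 : ℤ)) m) :
    ∑ v ∈ zerosOf K (jF K N - algebraMap K (XF K N) a),
        ((v.ord (jF K N - algebraMap K (XF K N) a)) - 1) =
      (Fintype.card (Cos N) : ℤ) - Module.finrank ℂ (fixedFun (Gamma0 N) g) := by
  have hT : ∀ q, pointEmb κ τ q (jF K N - algebraMap K (XF K N) a) =
      HahnSeries.ofPowerSeries ℤ ℂ (taylorAt τ (jShift (κ a))) := fun q => point_T κ τ q a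
  have ho := order_ofPowerSeries hord
  rw [sum_ord_sub_one (pointEmb κ τ) (fun q c => pointEmb_algebraMap κ τ q c)
    (pointEmb_injective κ τ) (transcendental_sub (transcendental_jF κ) a) (finrank_shift κ a) hT
    (by rw [ho]; exact_mod_cast hm) (MulAction.toPerm g)
    (fun q f => point_order_smul κ hg q f) (fun q d hd f => by
      rw [ho]
      refine point_dvd_order κ hg hμ ?_ f
      rwa [← MulAction.toPermHom_apply, ← map_pow, MulAction.toPermHom_apply, MulAction.toPerm_apply] at hd),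
    card_orbits_eq_finrank]

theorem sum_infty (κ : K →+* ℂ) :
    ∑ v ∈ zerosOf K (jF K N)⁻¹, (v.ord (jF K N)⁻¹ - 1) =
      (Fintype.card (Cos N) : ℤ) - ModularCurve.cuspCount N := by
  have hT : ∀ q, cuspEmb κ q (jF K N)⁻¹ = (iota (N := N) κ (ModularCurve.coeffEmb K ModularCurve.jq))⁻¹ :=
    fun q => by rw [map_inv₀, cuspEmb_jF]
  have ho : ((iota (N := N) κ (ModularCurve.coeffEmb K ModularCurve.jq))⁻¹).order = (N : ℤ) := by
    rw [lord_inv, order_iota_jq, neg_neg]
  rw [sum_ord_sub_one (cuspEmb κ) (fun q c => cuspEmb_algebraMap κ q c) (cuspEmb_injective κ)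
    (transcendental_inv (transcendental_jF κ))
    (by rw [adjoin_simple_inv_eq]; exact (isFunctionField_and_finrank κ).2.symm) hT
    (by rw [ho]; exact_mod_cast Nat.pos_of_ne_zero (NeZero.ne N)) (MulAction.toPerm ModularGroup.T)
    (fun q f => cusp_order_smul_T κ q f) (fun q d hd f => by
      rw [ho]
      refine cusp_dvd_order κ ?_ f
      rwa [← MulAction.toPermHom_apply, ← map_pow, MulAction.toPermHom_apply, MulAction.toPerm_apply] at hd),
    card_orbits_eq_finrank, FLTAgent.ES.finrank_fixed_T]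

set_option maxHeartbeats 1600000 in
theorem genus_count [CharZero K] [HasCanonicalDivisor (K := K) (F := XF K N)] (κ : K →+* ℂ) :
    (genus K (XF K N) : ℚ) = ModularCurve.genusFormula N := by
  classical
  haveI : CharZero (XF K N) := charZero_of_injective_algebraMap (algebraMap K (XF K N)).injective
  have hx := transcendental_jF (N := N) κ
  obtain ⟨hdeg, -⟩ := genus_spec hx
  set Z0 := zerosOf K (jF K N - algebraMap K (XF K N) 0) with hZ0
  set Z1 := zerosOf K (jF K N - algebraMap K (XF K N) 1728) with hZ1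
  set Zi := zerosOf K (jF K N)⁻¹ with hZi
  have hne : (0 : K) ≠ 1728 := by norm_num
  have hdisj : Disjoint Z0 Z1 := Finset.disjoint_left.2 fun v h1 h2 => by
    rw [hZ0, mem_zerosOf] at h1
    rw [hZ1, mem_zerosOf] at h2
    have h3 := (ordGE_of_le (show (1 : ℤ) ≤ _ from h1)).sub (ordGE_of_le (show (1 : ℤ) ≤ _ from h2))
    rw [sub_sub_sub_cancel_left, ← map_sub, sub_zero] at h3
    have := h3.le_ord (by simp)
    rw [ord_algebraMap] at this
    omega
  have hdisj2 : Disjoint (Z0 ∪ Z1) Zi := Finset.disjoint_left.2 fun v h1 h2 => by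
    rw [hZi, mem_zerosOf, v.ord_inv] at h2
    rw [Finset.mem_union, hZ0, hZ1, mem_zerosOf, mem_zerosOf] at h1
    rcases h1 with h1 | h1 <;>
      · have := ord_nonneg_of_sub h1
        omega
  have hsupp : (ramDiv hx).support ⊆ (Z0 ∪ Z1) ∪ Zi := by
    intro v hv
    rw [Finsupp.mem_support_iff, ramDiv_apply] at hv
    by_contra hmem
    simp only [Finset.mem_union, not_or, hZ0, hZ1, hZi, mem_zerosOf] at hmem
    obtain ⟨⟨hm0, hm1⟩, hmi⟩ := hmem
    rw [v.ord_inv] at hmi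
    have hpos := ord_sub_placeValue_pos hx (v := v) (by omega)
    set a := placeValue (jF K N) v
    have ha0 : a ≠ 0 := fun h => hm0 (h ▸ hpos)
    have ha1 : a ≠ 1728 := fun h => hm1 (h ▸ hpos)
    obtain ⟨τ, hτ⟩ := exists_jfun_eq (κ a)
    have hκ : jfun τ ≠ 0 ∧ jfun τ ≠ 1728 := by
      rw [hτ]
      exact ⟨fun h => ha0 ((map_eq_zero κ).1 h),
        fun h => ha1 (κ.injective (by rw [h, map_ofNat]))⟩
    have h1 := sum_point (N := N) κ a τ 1 (one_smul _ _) 1 one_pos
      (by rw [← hτ, order_taylor_generic hκ]; rfl) (by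
        simpa [ModularGroup.denom_apply] using IsPrimitiveRoot.one)
    have h2 : Module.finrank ℂ (fixedFun (Gamma0 N) (1 : SL(2, ℤ))) = Fintype.card (Cos N) := by
      rw [show fixedFun (Gamma0 N) (1 : SL(2, ℤ)) = ⊤ from eq_top_iff.2 fun f _ =>
        (FLTAgent.ES.mem_fixedFun _).2 fun x => by rw [one_smul], finrank_top, Module.finrank_pi]
    rw [h2, sub_self] at h1
    have h3 := (Finset.sum_eq_zero_iff_of_nonneg fun w hw => by
      have := mem_zerosOf.1 hw; omega).1 h1 v (mem_zerosOf.2 hpos)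
    exact hv (by rw [ramIdx_eq hx hpos]; exact h3)
  have hr : ∀ a : K, ∀ v ∈ zerosOf K (jF K N - algebraMap K (XF K N) a),
      ramDiv hx v = v.ord (jF K N - algebraMap K (XF K N) a) - 1 := fun a v hv => by
    rw [ramDiv_apply, ramIdx_eq hx (mem_zerosOf.1 hv)]
  have hri : ∀ v ∈ Zi, ramDiv hx v = v.ord (jF K N)⁻¹ - 1 := fun v hv => by
    rw [hZi, mem_zerosOf, v.ord_inv] at hv
    rw [ramDiv_apply, ramIdx, if_pos (by omega), v.ord_inv]
  rw [degree_eq_sum hsupp, Finset.sum_union hdisj2, Finset.sum_union hdisj,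
    Finset.sum_congr rfl (hr 0), Finset.sum_congr rfl (hr 1728), Finset.sum_congr rfl hri] at hdeg
  have hρ : IsPrimitiveRoot
      (denom (ModularGroup.S * ModularGroup.T : SL(2, ℤ)) (rhoPt : ℂ) ^ (-2 : ℤ)) 3 := by
    have h3 : (rhoPt : ℂ) ^ 3 = 1 := by
      linear_combination ((rhoPt : ℂ) - 1) * FLTAgent.ES.rhoPt_eq
    have h2 : (((rhoPt : ℂ) + 1) ^ 2)⁻¹ = (rhoPt : ℂ) ^ 2 := by
      rw [show ((rhoPt : ℂ) + 1) ^ 2 = (rhoPt : ℂ) by linear_combination FLTAgent.ES.rhoPt_eq]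
      refine inv_eq_of_mul_eq_one_right ?_
      linear_combination h3
    rw [FLTAgent.ES.denom_ST_rho, zpow_neg, zpow_ofNat, h2]
    exact FLTAgent.ES.rho_sq_primitive
  have hI : IsPrimitiveRoot (denom ModularGroup.S (UpperHalfPlane.I : ℂ) ^ (-2 : ℤ)) 2 := by
    rw [FLTAgent.ES.denom_S_I, zpow_neg, zpow_ofNat, Complex.I_sq, inv_neg_one]
    exact IsPrimitiveRoot.neg_one 0 (by norm_num)
  rw [hZi, sum_infty κ,
    sum_point κ 0 rhoPt (ModularGroup.S * ModularGroup.T) FLTAgent.ES.rho_fixed 3 (by norm_num)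
      (by rw [map_zero]; exact order_taylor_rho) hρ,
    sum_point κ 1728 UpperHalfPlane.I ModularGroup.S FLTAgent.ES.I_fixed 2 (by norm_num)
      (by rw [map_ofNat]; exact order_taylor_I) hI,
    (isFunctionField_and_finrank (N := N) κ).2] at hdeg
  have e1 := FLTAgent.ES.finrank_fixed_ST N
  have e2 := FLTAgent.ES.finrank_fixed_S N
  have e3 : Fintype.card (Cos N) = ModularCurve.dedekindPsi N := by
    rw [← FLTAgent.ES.card_cosets_eq_psi N, Nat.card_eq_fintype_card]
  rw [Nat.card_eq_fintype_card] at e1 e2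
  rw [e3] at hdeg e1 e2
  have e1' := congrArg (Nat.cast : ℕ → ℚ) e1
  have e2' := congrArg (Nat.cast : ℕ → ℚ) e2
  have e0 := congrArg (Int.cast : ℤ → ℚ) hdeg
  push_cast at e0 e1' e2'
  rw [ModularCurve.genusFormula]
  linarith

end FLTAgent.X0Fn
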