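import Mathlib

/-!
# Laurent expansions at infinity of periodic functions on the upper half plane
-/

set_option autoImplicit false

noncomputable section

open UpperHalfPlane Filter Complex Function
open scoped Topology Manifold

namespace FLTAgent.X0Fn

variable {h : ℝ} [Fact (0 < h)]

/-- The parameter at infinity. -/
def qh (h : ℝ) : ℍ → ℂ := fun τ => Periodic.qParam h (τ : ℂ)

theorem hpos : 0 < h := Fact.out

omit [Fact (0 < h)] in
theorem qh_ne_zero (τ : ℍ) : qh h τ ≠ 0 := Periodic.qParam_ne_zero _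

omit [Fact (0 < h)] in
theorem mdiff_qh : MDiff (qh h) := by
  rw [UpperHalfPlane.mdifferentiable_iff]
  have : DifferentiableOn ℂ (Periodic.qParam h) {z : ℂ | 0 < z.im} :=
    Periodic.differentiable_qParam.differentiableOn
  refine this.congr fun z hz => ?_
  simp [qh, Function.comp_apply, ofComplex_apply_of_im_pos hz]

theorem periodic_qh : Periodic (qh h ∘ ofComplex) h := by
  intro z
  by_cases hz : 0 < z.im
  · have hz1 : 0 < (z + (h : ℂ)).im := by simpa using hz
    simp only [qh, comp_apply, ofComplex_apply_of_im_pos hz, ofComplex_apply_of_im_pos hz1]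
    have : (h : ℂ) ≠ 0 := by exact_mod_cast (ne_of_gt (hpos (h := h)))
    rw [Periodic.qParam, Periodic.qParam, mul_add, add_div, Complex.exp_add,
      mul_div_assoc (2 * Real.pi * Complex.I : ℂ) (h : ℂ), div_self this, mul_one,
      Complex.exp_two_pi_mul_I, mul_one]
  · simp only [comp_apply]
    have hz1 : (z + (h : ℂ)).im ≤ 0 := by simpa using not_lt.mp hz
    rw [ofComplex_apply_of_im_nonpos hz1, ofComplex_apply_of_im_nonpos (not_lt.mp hz)]

theorem bdd_qh : IsBoundedAtImInfty (qh h) :=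
  (qParam_tendsto_atImInfty hpos).isBigO_one ℝ

variable (h) in
/-- Holomorphic periodic functions bounded at infinity. -/
def Per : Subalgebra ℂ (ℍ → ℂ) where
  carrier := {f | MDiff f ∧ Periodic (f ∘ ofComplex) h ∧ IsBoundedAtImInfty f}
  mul_mem' := by
    rintro f g ⟨h1, h2, h3⟩ ⟨k1, k2, k3⟩
    exact ⟨h1.mul k1, h2.mul k2, h3.mul k3⟩
  add_mem' := by
    rintro f g ⟨h1, h2, h3⟩ ⟨k1, k2, k3⟩
    exact ⟨h1.add k1, h2.add k2, h3.add k3⟩
  algebraMap_mem' c :=
    ⟨mdifferentiable_const, fun _ => rfl, Filter.const_boundedAtFilter _ c⟩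

theorem qh_mem_Per : qh h ∈ Per h := ⟨mdiff_qh, periodic_qh, bdd_qh⟩

theorem analyticAt_of_mem {f : ℍ → ℂ} (hf : f ∈ Per h) :
    AnalyticAt ℂ (UpperHalfPlane.cuspFunction h f) 0 :=
  analyticAt_cuspFunction_zero hpos hf.2.1 hf.1 hf.2.2

variable (h) in
/-- Expansion of a bounded periodic function. -/
def qExp : Per h →ₐ[ℂ] PowerSeries ℂ where
  toFun f := qExpansion h (f : ℍ → ℂ)
  map_one' := qExpansion_one h
  map_mul' f g := qExpansion_mul (analyticAt_of_mem f.2) (analyticAt_of_mem g.2)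
  map_zero' := qExpansion_zero h
  map_add' f g := qExpansion_add (analyticAt_of_mem f.2) (analyticAt_of_mem g.2)
  commutes' c := by
    have he : ((algebraMap ℂ (Per h) c : Per h) : ℍ → ℂ) = c • (1 : ℍ → ℂ) := by
      funext τ; simp [Algebra.algebraMap_eq_smul_one]
    rw [he, qExpansion_smul (analyticAt_of_mem (Per h).one_mem), qExpansion_one,
      Algebra.algebraMap_eq_smul_one]

theorem qExp_eq_of_hasSum {f : Per h} {c : PowerSeries ℂ}
    (hc : ∀ τ : ℍ, HasSum (fun n => PowerSeries.coeff n c • Periodic.qParam h (τ : ℂ) ^ n)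
      ((f : ℍ → ℂ) τ)) : qExp h f = c := by
  ext n
  have h1 := (hasFPowerSeriesOnBall_cuspFunction (f := (f : ℍ → ℂ))
    (c := fun n => PowerSeries.coeff n c) hpos (analyticAt_of_mem f.2) hc).hasFPowerSeriesAt
  have h2 := (analyticAt_of_mem f.2).hasFPowerSeriesAt
  have h3 := congrArg (fun p => FormalMultilinearSeries.coeff p n) (h1.eq_formalMultilinearSeries h2)
  simp only [FormalMultilinearSeries.coeff_ofScalars] at h3
  show PowerSeries.coeff n (qExpansion h (f : ℍ → ℂ)) = _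
  rw [h3, qExpansion_coeff]
  ring

theorem hasSum_qExp (f : Per h) (τ : ℍ) :
    HasSum (fun n => PowerSeries.coeff n (qExp h f) • Periodic.qParam h (τ : ℂ) ^ n)
      ((f : ℍ → ℂ) τ) :=
  hasSum_qExpansion hpos f.2.2.1 f.2.1 f.2.2.2 τ

theorem qExp_injective : Function.Injective (qExp h) := by
  intro f g hfg
  apply Subtype.ext
  funext τ
  exact (hasSum_qExp f τ).unique (hfg ▸ hasSum_qExp g τ)

theorem qExp_qh : qExp h ⟨qh h, qh_mem_Per⟩ = PowerSeries.X := by
  refine qExp_eq_of_hasSum fun τ => ?_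
  convert hasSum_ite_eq (1 : ℕ) (qh h τ) using 1
  funext n
  rw [PowerSeries.coeff_X]
  split_ifs with hn
  · subst hn; simp [qh]
  · simp

variable (h) in
/-- Holomorphic periodic functions with at most a pole at infinity. -/
def PerL : Subalgebra ℂ (ℍ → ℂ) where
  carrier := {f | ∃ m : ℕ, f * qh h ^ m ∈ Per h}
  mul_mem' := by
    rintro f g ⟨m, hm⟩ ⟨n, hn⟩
    exact ⟨m + n, by rw [pow_add, mul_mul_mul_comm]; exact mul_mem hm hn⟩
  add_mem' := by
    rintro f g ⟨m, hm⟩ ⟨n, hn⟩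
    refine ⟨m + n, ?_⟩
    have e : (f + g) * qh h ^ (m + n) = f * qh h ^ m * qh h ^ n + g * qh h ^ n * qh h ^ m := by
      rw [pow_add]; ring
    rw [e]
    exact add_mem (mul_mem hm (pow_mem qh_mem_Per _)) (mul_mem hn (pow_mem qh_mem_Per _))
  algebraMap_mem' c := ⟨0, by simpa using (Per h).algebraMap_mem c⟩

theorem mem_PerL_iff {f : ℍ → ℂ} : f ∈ PerL h ↔ ∃ m : ℕ, f * qh h ^ m ∈ Per h := Iff.rfl

theorem Per_le_PerL : Per h ≤ PerL h := fun f hf => ⟨0, by simpa using hf⟩

theorem periodic_of_mem {f : ℍ → ℂ} (hf : f ∈ PerL h) : Periodic (f ∘ ofComplex) h := by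
  obtain ⟨m, hm⟩ := hf
  intro z
  have h1 := hm.2.1 z
  have h2 := periodic_qh (h := h) z
  simp only [comp_apply, Pi.mul_apply, Pi.pow_apply] at h1 h2 ⊢
  rw [h2] at h1
  exact mul_right_cancel₀ (pow_ne_zero _ (qh_ne_zero _)) h1

/-- The series attached to a function with a chosen clearing exponent. -/
def expAux (f : ℍ → ℂ) (m : ℕ) (hm : f * qh h ^ m ∈ Per h) : LaurentSeries ℂ :=
  HahnSeries.single (-(m : ℤ)) 1 * HahnSeries.ofPowerSeries ℤ ℂ (qExp h ⟨_, hm⟩)

theorem expAux_eq (f : ℍ → ℂ) {m n : ℕ} (hm : f * qh h ^ m ∈ Per h) (hn : f * qh h ^ n ∈ Per h) :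
    expAux f m hm = expAux f n hn := by
  have key : ∀ {m n : ℕ} (hm : f * qh h ^ m ∈ Per h) (hn : f * qh h ^ n ∈ Per h), m ≤ n →
      expAux f m hm = expAux f n hn := by
    intro m n hm hn hmn
    obtain ⟨k, rfl⟩ := Nat.exists_eq_add_of_le hmn
    have e : (⟨_, hn⟩ : Per h) = ⟨_, hm⟩ * ⟨qh h, qh_mem_Per⟩ ^ k :=
      Subtype.ext (by simp [pow_add, mul_assoc])
    rw [expAux, expAux, e, map_mul (qExp h), map_pow (qExp h), qExp_qh, map_mul, map_pow,
      HahnSeries.ofPowerSeries_X, HahnSeries.single_pow, one_pow, ← mul_assoc,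
      mul_comm (HahnSeries.single (-((m + k : ℕ) : ℤ)) (1 : ℂ)), mul_assoc,
      HahnSeries.single_mul_single, mul_comm]
    congr 2 <;> simp
  rcases le_total m n with hle | hle
  · exact key hm hn hle
  · exact (key hn hm hle).symm

variable (h) in
/-- Laurent expansion at infinity. -/
def expL : PerL h →ₐ[ℂ] LaurentSeries ℂ where
  toFun f := expAux (f : ℍ → ℂ) f.2.choose f.2.choose_spec
  map_one' := by
    show expAux (1 : ℍ → ℂ) _ (PerL h).one_mem.choose_spec = 1
    rw [expAux_eq (n := 0) (hn := by simpa using (Per h).one_mem), expAux]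
    have : (⟨(1 : ℍ → ℂ) * qh h ^ 0, by simpa using (Per h).one_mem⟩ : Per h) = 1 :=
      Subtype.ext (by simp)
    rw [this]
    simp
  map_zero' := by
    show expAux (0 : ℍ → ℂ) _ (PerL h).zero_mem.choose_spec = 0
    have : ∀ m hm, expAux (h := h) (0 : ℍ → ℂ) m hm = 0 := fun m hm => by
      have e : (⟨_, hm⟩ : Per h) = 0 := Subtype.ext (by simp)
      rw [expAux, e, map_zero, map_zero, mul_zero]
    exact this _ _
  map_mul' f g := by
    set m := f.2.choose
    set n := g.2.choose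
    have hmn : ((f : ℍ → ℂ) * (g : ℍ → ℂ)) * qh h ^ (m + n) ∈ Per h := by
      rw [pow_add, mul_mul_mul_comm]; exact mul_mem f.2.choose_spec g.2.choose_spec
    show expAux ((f : ℍ → ℂ) * (g : ℍ → ℂ)) _ (f * g).2.choose_spec = _
    rw [expAux_eq (n := m + n) (hn := hmn)]
    have e : (⟨_, hmn⟩ : Per h) = ⟨_, f.2.choose_spec⟩ * ⟨_, g.2.choose_spec⟩ :=
      Subtype.ext (show (f : ℍ → ℂ) * (g : ℍ → ℂ) * qh h ^ (m + n) = (f : ℍ → ℂ) * qh h ^ m * ((g : ℍ → ℂ) * qh h ^ n) by ring)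
    simp only [expAux]
    rw [e, map_mul, map_mul, mul_mul_mul_comm, HahnSeries.single_mul_single]
    rw [mul_one, show -((m + n : ℕ) : ℤ) = -(m : ℤ) + -(n : ℤ) by push_cast; ring]
  map_add' f g := by
    set m := f.2.choose
    set n := g.2.choose
    have hf' : (f : ℍ → ℂ) * qh h ^ (m + n) ∈ Per h := by
      rw [pow_add, ← mul_assoc]; exact mul_mem f.2.choose_spec (pow_mem qh_mem_Per _)
    have hg' : (g : ℍ → ℂ) * qh h ^ (m + n) ∈ Per h := by
      rw [add_comm, pow_add, ← mul_assoc]; exact mul_mem g.2.choose_spec (pow_mem qh_mem_Per _)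
    have hfg : ((f : ℍ → ℂ) + (g : ℍ → ℂ)) * qh h ^ (m + n) ∈ Per h := by
      rw [add_mul]; exact add_mem hf' hg'
    show expAux ((f : ℍ → ℂ) + (g : ℍ → ℂ)) _ (f + g).2.choose_spec =
      expAux (f : ℍ → ℂ) m f.2.choose_spec + expAux (g : ℍ → ℂ) n g.2.choose_spec
    rw [expAux_eq (n := m + n) (hn := hfg), expAux_eq (f : ℍ → ℂ) f.2.choose_spec hf',
      expAux_eq (g : ℍ → ℂ) g.2.choose_spec hg', expAux, expAux, expAux]
    have e : (⟨_, hfg⟩ : Per h) = ⟨_, hf'⟩ + ⟨_, hg'⟩ := Subtype.ext (add_mul _ _ _)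
    rw [e, map_add, map_add, mul_add]
  commutes' c := by
    show expAux (algebraMap ℂ (ℍ → ℂ) c) _ ((PerL h).algebraMap_mem c).choose_spec = _
    rw [expAux_eq (n := 0) (hn := by simpa using (Per h).algebraMap_mem c), expAux]
    have : (⟨algebraMap ℂ (ℍ → ℂ) c * qh h ^ 0, by simpa using (Per h).algebraMap_mem c⟩ : Per h) =
        algebraMap ℂ (Per h) c := Subtype.ext (by simp)
    rw [this, AlgHom.commutes, PowerSeries.algebraMap_apply, Algebra.algebraMap_self, RingHom.id_apply,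
      HahnSeries.ofPowerSeries_C]
    simp [HahnSeries.algebraMap_apply', HahnSeries.C_apply]

theorem expL_eq (f : PerL h) {m : ℕ} (hm : (f : ℍ → ℂ) * qh h ^ m ∈ Per h) :
    expL h f = HahnSeries.single (-(m : ℤ)) 1 * HahnSeries.ofPowerSeries ℤ ℂ (qExp h ⟨_, hm⟩) :=
  expAux_eq _ _ hm

theorem expL_of_mem_Per (f : PerL h) (hf : (f : ℍ → ℂ) ∈ Per h) :
    expL h f = HahnSeries.ofPowerSeries ℤ ℂ (qExp h ⟨_, hf⟩) := by
  rw [expL_eq f (m := 0) (by simpa using hf)]
  simp

theorem expL_injective : Function.Injective (expL h) := by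
  rw [injective_iff_map_eq_zero]
  intro f hf
  have hm := f.2.choose_spec
  rw [expL_eq f hm, mul_eq_zero] at hf
  rcases hf with hf | hf
  · exact absurd hf (HahnSeries.single_ne_zero one_ne_zero)
  · have h0 : (⟨_, hm⟩ : Per h) = 0 :=
      qExp_injective (by rw [map_zero]; exact HahnSeries.ofPowerSeries_injective (hf.trans (map_zero _).symm))
    refine Subtype.ext (funext fun τ => ?_)
    have := congrFun (congrArg Subtype.val h0) τ
    simp only [Pi.mul_apply, Pi.pow_apply, ZeroMemClass.coe_zero, Pi.zero_apply, mul_eq_zero] at this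
    exact this.resolve_right (pow_ne_zero _ (qh_ne_zero τ))

/-- Without polar part, the function is bounded. -/
theorem mem_Per_of_coeff (f : PerL h) (hf : ∀ n : ℤ, n < 0 → (expL h f).coeff n = 0) :
    (f : ℍ → ℂ) ∈ Per h := by
  obtain ⟨m, hm⟩ := f.2
  rw [expL_eq f hm] at hf
  set S := qExp h ⟨_, hm⟩ with hS
  have hlow : ∀ n < m, PowerSeries.coeff n S = 0 := by
    intro n hn
    have := hf ((n : ℤ) - m) (by omega)
    rw [HahnSeries.coeff_single_mul, one_mul, sub_neg_eq_add, sub_add_cancel,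
      HahnSeries.ofPowerSeries_apply_coeff] at this
    exact this
  have hsum : ∀ τ : ℍ, HasSum (fun n => PowerSeries.coeff (n + m) S • Periodic.qParam h (τ : ℂ) ^ n)
      ((f : ℍ → ℂ) τ) := by
    intro τ
    have hq : Periodic.qParam h (τ : ℂ) ^ m ≠ 0 := pow_ne_zero _ (Periodic.qParam_ne_zero _)
    have h1 := (hasSum_nat_add_iff' m).2 (hasSum_qExp ⟨_, hm⟩ τ)
    rw [Finset.sum_eq_zero (fun n hn => by rw [← hS, hlow n (Finset.mem_range.1 hn), zero_smul]),
      sub_zero] at h1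
    have h2 := h1.mul_right (Periodic.qParam h (τ : ℂ) ^ m)⁻¹
    simp only [Pi.mul_apply, Pi.pow_apply, qh] at h2
    rw [mul_assoc, mul_inv_cancel₀ hq, mul_one] at h2
    refine h2.congr_fun fun n => ?_
    rw [pow_add, smul_eq_mul, smul_eq_mul]
    field_simp
    rw [← hS]
    ring
  refine ⟨?_, periodic_of_mem f.2, isBoundedAtImInfty_of_hasSum_qExpansion hpos hsum⟩
  have e : (f : ℍ → ℂ) = fun τ => ((f : ℍ → ℂ) * qh h ^ m) τ / (qh h τ) ^ m := by
    funext τ
    simp [qh_ne_zero τ]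
  rw [e, UpperHalfPlane.mdifferentiable_iff]
  exact ((UpperHalfPlane.mdifferentiable_iff.1 hm.1).div
    ((UpperHalfPlane.mdifferentiable_iff.1 (mdiff_qh (h := h))).pow m) fun z _ => pow_ne_zero _ (qh_ne_zero _))

end FLTAgent.X0Fn
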