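import Fermat.Agent.X0Fn.Expansion

/-!
# Taylor series of holomorphic functions on the upper half plane, and their leading terms
-/

set_option autoImplicit false

noncomputable section

open UpperHalfPlane Filter Complex Function
open scoped Topology Manifold Nat MatrixGroups

namespace FLTAgent.X0Fn

/-- Holomorphic functions on the upper half plane. -/
def Hol : Subalgebra ℂ (ℍ → ℂ) where
  carrier := {f | MDiff f}
  mul_mem' := fun h k => h.mul k
  add_mem' := fun h k => h.add k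
  algebraMap_mem' _ := mdifferentiable_const

theorem analyticAt_of_hol {f : ℍ → ℂ} (hf : MDiff f) {z : ℂ} (hz : 0 < z.im) :
    AnalyticAt ℂ (f ∘ ofComplex) z :=
  (UpperHalfPlane.mdifferentiable_iff.1 hf).analyticAt (isOpen_upperHalfPlaneSet.mem_nhds hz)

/-- Taylor series at a point. -/
def tay (z₀ : ℂ) (f : ℂ → ℂ) : PowerSeries ℂ :=
  PowerSeries.mk fun n => iteratedDeriv n f z₀ / n !

theorem tay_mul {z₀ : ℂ} {f g : ℂ → ℂ} (hf : AnalyticAt ℂ f z₀) (hg : AnalyticAt ℂ g z₀) :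
    tay z₀ (f * g) = tay z₀ f * tay z₀ g := by
  ext n
  rw [tay, PowerSeries.coeff_mk, iteratedDeriv_mul hf.contDiffAt hg.contDiffAt,
    PowerSeries.coeff_mul, Finset.Nat.sum_antidiagonal_eq_sum_range_succ_mk, Finset.sum_div]
  refine Finset.sum_congr rfl fun i hi => ?_
  have hin : i ≤ n := Nat.lt_succ_iff.1 (Finset.mem_range.1 hi)
  rw [tay, tay, PowerSeries.coeff_mk, PowerSeries.coeff_mk, Nat.cast_choose ℂ hin]
  have := n.factorial_ne_zero
  have := i.factorial_ne_zero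
  have := (n - i).factorial_ne_zero
  field_simp

theorem tay_congr {z₀ : ℂ} {f g : ℂ → ℂ} (h : f =ᶠ[𝓝 z₀] g) : tay z₀ f = tay z₀ g := by
  ext n
  rw [tay, tay, PowerSeries.coeff_mk, PowerSeries.coeff_mk, h.iteratedDeriv_eq n]

theorem tay_const (z₀ c : ℂ) : tay z₀ (fun _ => c) = PowerSeries.C c := by
  ext n
  rw [tay, PowerSeries.coeff_mk, iteratedDeriv_const, PowerSeries.coeff_C]
  split_ifs with h
  · subst h; simp
  · simp

theorem tay_sub_id (z₀ : ℂ) : tay z₀ (fun z => z - z₀) = PowerSeries.X := by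
  ext n
  rw [tay, PowerSeries.coeff_mk, PowerSeries.coeff_X]
  rcases n with _ | _ | n
  · simp
  · simp
  · rw [if_neg (by omega), iteratedDeriv_succ', show deriv (fun z : ℂ => z - z₀) = fun _ => 1 from
      funext fun z => by simp, iteratedDeriv_const, if_neg (Nat.succ_ne_zero n), zero_div]

theorem tay_pow {z₀ : ℂ} {f : ℂ → ℂ} (hf : AnalyticAt ℂ f z₀) (k : ℕ) :
    tay z₀ (f ^ k) = tay z₀ f ^ k := by
  induction k with
  | zero => rw [pow_zero, pow_zero, Pi.one_def, tay_const, map_one]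
  | succ k ih => rw [pow_succ, pow_succ, tay_mul (hf.pow k) hf, ih]

/-- The Taylor series at `τ₀` as an algebra map. -/
def taylorAt (τ₀ : ℍ) : Hol →ₐ[ℂ] PowerSeries ℂ where
  toFun f := tay (τ₀ : ℂ) ((f : ℍ → ℂ) ∘ ofComplex)
  map_one' := (tay_const (τ₀ : ℂ) 1).trans (map_one _)
  map_zero' := (tay_const (τ₀ : ℂ) 0).trans (map_zero _)
  map_mul' f g := tay_mul (analyticAt_of_hol f.2 τ₀.im_pos) (analyticAt_of_hol g.2 τ₀.im_pos)
  map_add' f g := by
    ext n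
    have hf : ContDiffAt ℂ n ((f : ℍ → ℂ) ∘ ofComplex) τ₀ :=
      (analyticAt_of_hol f.2 τ₀.im_pos).contDiffAt
    have hg : ContDiffAt ℂ n ((g : ℍ → ℂ) ∘ ofComplex) τ₀ :=
      (analyticAt_of_hol g.2 τ₀.im_pos).contDiffAt
    rw [map_add, tay, tay, tay, PowerSeries.coeff_mk, PowerSeries.coeff_mk, PowerSeries.coeff_mk,
      ← add_div, ← iteratedDeriv_add hf hg]
    rfl
  commutes' c := by
    rw [PowerSeries.algebraMap_apply, Algebra.algebraMap_self, RingHom.id_apply]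
    exact tay_const (τ₀ : ℂ) c

/-- `f` has leading term `a (z - z₀) ^ k`. -/
def HasLead (z₀ : ℂ) (f : ℂ → ℂ) (k : ℕ) (a : ℂ) : Prop :=
  a ≠ 0 ∧ ∃ ψ : ℂ → ℂ, AnalyticAt ℂ ψ z₀ ∧ ψ z₀ = a ∧ ∀ᶠ z in 𝓝 z₀, f z = (z - z₀) ^ k * ψ z

theorem HasLead.tay_order {z₀ a : ℂ} {f : ℂ → ℂ} {k : ℕ} (h : HasLead z₀ f k a) :
    (tay z₀ f).order = k ∧ PowerSeries.coeff k (tay z₀ f) = a := by
  obtain ⟨ha, ψ, hψ, hψa, he⟩ := h
  have hid : AnalyticAt ℂ (fun z : ℂ => z - z₀) z₀ := analyticAt_id.sub analyticAt_const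
  have h1 : tay z₀ f = PowerSeries.X ^ k * tay z₀ ψ := by
    rw [tay_congr (g := (fun z => z - z₀) ^ k * ψ) he, tay_mul (hid.pow k) hψ, tay_pow hid,
      tay_sub_id]
  have hc : PowerSeries.coeff k (tay z₀ f) = a := by
    have h2 := PowerSeries.coeff_X_pow_mul (tay z₀ ψ) k 0
    rw [Nat.zero_add] at h2
    rw [h1, h2, tay, PowerSeries.coeff_mk]
    simp [hψa]
  refine ⟨PowerSeries.order_eq_nat.2 ⟨by rwa [hc], fun i hi => ?_⟩, hc⟩
  rw [h1, PowerSeries.coeff_X_pow_mul', if_neg (by omega)]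

theorem exists_hasLead {f : ℍ → ℂ} (hf : MDiff f) (h0 : f ≠ 0) (τ₀ : ℍ) :
    ∃ k a, HasLead (τ₀ : ℂ) (f ∘ ofComplex) k a := by
  have han := analyticAt_of_hol hf τ₀.im_pos
  have hne : ¬∀ᶠ z in 𝓝 (τ₀ : ℂ), (f ∘ ofComplex) z = 0 := by
    intro h
    apply h0
    have hon : AnalyticOnNhd ℂ (f ∘ ofComplex) {z : ℂ | 0 < z.im} := fun z hz => analyticAt_of_hol hf hz
    have hpre : IsPreconnected {z : ℂ | 0 < z.im} :=
      (Complex.isConnected_of_upperHalfPlane (r := 0) subset_rfl (fun z hz => by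
        simp only [Set.mem_ofPred_eq] at hz ⊢; exact hz.le)).isPreconnected
    have := hon.eqOn_zero_of_preconnected_of_eventuallyEq_zero hpre τ₀.im_pos h
    funext τ
    simpa using this τ.im_pos
  obtain ⟨k, ψ, hψ, hψ0, he⟩ := han.exists_eventuallyEq_pow_smul_nonzero_iff.2 hne
  exact ⟨k, ψ τ₀, hψ0, ψ, hψ, rfl, by simpa [smul_eq_mul] using he⟩

theorem taylorAt_injective (τ₀ : ℍ) : Function.Injective (taylorAt τ₀) := by
  rw [injective_iff_map_eq_zero]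
  intro f hf
  by_contra h
  obtain ⟨k, a, hk⟩ := exists_hasLead f.2 (fun e => h (Subtype.ext e)) τ₀
  have h1 := hk.tay_order.2
  rw [show tay (τ₀ : ℂ) ((f : ℍ → ℂ) ∘ ofComplex) = 0 from hf, map_zero] at h1
  exact hk.1 h1.symm

theorem HasLead.comp {z₀ a : ℂ} {f u : ℂ → ℂ} {k : ℕ} (h : HasLead z₀ f k a)
    (hu : AnalyticAt ℂ u z₀) (hu0 : u z₀ = z₀) {w : ℂ} (hw : HasDerivAt u w z₀) (hw0 : w ≠ 0) :
    HasLead z₀ (f ∘ u) k (a * w ^ k) := by
  obtain ⟨ha, ψ, hψ, hψa, he⟩ := h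
  have hd : AnalyticAt ℂ (dslope u z₀) z₀ := by
    obtain ⟨p, hp⟩ := hu
    exact ⟨_, hp.has_fpower_series_dslope_fslope⟩
  refine ⟨mul_ne_zero ha (pow_ne_zero _ hw0), fun z => dslope u z₀ z ^ k * ψ (u z),
    (hd.pow k).mul (hu0.symm ▸ hψ |>.comp hu), ?_, ?_⟩
  · show dslope u z₀ z₀ ^ k * ψ (u z₀) = _
    rw [dslope_same, hw.deriv, hu0, hψa, mul_comm]
  · have ht : Tendsto u (𝓝 z₀) (𝓝 z₀) := by
      have := hu.continuousAt.tendsto
      rwa [hu0] at this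
    filter_upwards [ht.eventually he] with z hz
    rw [comp_apply, hz]
    have h2 : u z - z₀ = (z - z₀) * dslope u z₀ z := by
      have := sub_smul_dslope u z₀ z
      rw [smul_eq_mul, hu0] at this
      exact this.symm
    rw [h2, mul_pow]
    ring

/-- Composing with a transformation fixing `τ₀` keeps the order and twists the leading term. -/
theorem taylor_comp_smul {f : Hol} {τ₀ : ℍ} {g : SL(2, ℤ)} (hg : g • τ₀ = τ₀)
    {fg : Hol} (hfg : ∀ τ, (fg : ℍ → ℂ) τ = (f : ℍ → ℂ) (g • τ)) :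
    (taylorAt τ₀ fg).order = (taylorAt τ₀ f).order ∧
      ∀ k : ℕ, (taylorAt τ₀ f).order = k → fg = f →
        ((denom g (τ₀ : ℂ)) ^ (-2 : ℤ)) ^ k = 1 := by
  by_cases h0 : (f : ℍ → ℂ) = 0
  · have hf : f = 0 := Subtype.ext h0
    have hf' : fg = 0 := Subtype.ext (funext fun τ => by rw [hfg]; simp [hf])
    rw [hf, hf', map_zero]
    exact ⟨rfl, fun k hk _ => by simp at hk⟩
  obtain ⟨k, a, hk⟩ := exists_hasLead f.2 h0 τ₀
  set u : ℂ → ℂ := fun z => ((g 0 0 : ℤ) * z + (g 0 1 : ℤ)) / ((g 1 0 : ℤ) * z + (g 1 1 : ℤ)) with hu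
  set c : ℂ := (g 1 0 : ℤ) * (τ₀ : ℂ) + (g 1 1 : ℤ) with hc
  have hden : denom g (τ₀ : ℂ) = c := by simp [UpperHalfPlane.denom, hc]
  have hden0 : c ≠ 0 := hden ▸ UpperHalfPlane.denom_ne_zero _ _
  have hu0 : u τ₀ = τ₀ := by
    have := congrArg (fun τ : ℍ => (τ : ℂ)) hg
    simp only [UpperHalfPlane.coe_specialLinearGroup_apply] at this
    simpa [hu] using this
  have hanu : AnalyticAt ℂ u τ₀ :=
    ((analyticAt_const.mul analyticAt_id).add analyticAt_const).div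
      ((analyticAt_const.mul analyticAt_id).add analyticAt_const) hden0
  have hdet : ((g 0 0 : ℤ) : ℂ) * (g 1 1 : ℤ) - (g 0 1 : ℤ) * (g 1 0 : ℤ) = 1 := by
    have := g.2
    rw [Matrix.det_fin_two] at this
    exact_mod_cast this
  have hderiv : HasDerivAt u (c ^ (-2 : ℤ)) τ₀ := by
    have hA : HasDerivAt (fun z : ℂ => ((g 0 0 : ℤ) : ℂ) * z + (g 0 1 : ℤ)) (g 0 0 : ℤ) τ₀ := by
      simpa using ((hasDerivAt_id (τ₀ : ℂ)).const_mul ((g 0 0 : ℤ) : ℂ)).add_const ((g 0 1 : ℤ) : ℂ)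
    have hB : HasDerivAt (fun z : ℂ => ((g 1 0 : ℤ) : ℂ) * z + (g 1 1 : ℤ)) (g 1 0 : ℤ) τ₀ := by
      simpa using ((hasDerivAt_id (τ₀ : ℂ)).const_mul ((g 1 0 : ℤ) : ℂ)).add_const ((g 1 1 : ℤ) : ℂ)
    refine (hA.div hB hden0).congr_deriv ?_
    rw [← hc, zpow_neg, zpow_two, eq_comm, inv_eq_iff_eq_inv, inv_div, eq_div_iff]
    · rw [hc]; linear_combination (c * c) * hdet
    · rw [hc]; intro h
      have : ((g 0 0 : ℤ) : ℂ) * (g 1 1 : ℤ) - (g 0 1 : ℤ) * (g 1 0 : ℤ) = 0 := by linear_combination h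
      rw [hdet] at this
      exact one_ne_zero this
  have hw0 : c ^ (-2 : ℤ) ≠ 0 := zpow_ne_zero _ hden0
  have hlead := hk.comp hanu hu0 hderiv hw0
  have heq : tay (τ₀ : ℂ) ((fg : ℍ → ℂ) ∘ ofComplex) =
      tay (τ₀ : ℂ) (((f : ℍ → ℂ) ∘ ofComplex) ∘ u) := by
    refine tay_congr ?_
    filter_upwards [isOpen_upperHalfPlaneSet.mem_nhds τ₀.im_pos] with z hz
    simp only [comp_apply, ofComplex_apply_of_im_pos hz, hfg]
    have hcoe : ((g • (⟨z, hz⟩ : ℍ) : ℍ) : ℂ) = u z := by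
      rw [UpperHalfPlane.coe_specialLinearGroup_apply]
      simp [hu]
    conv_rhs => rw [← hcoe]
    rw [UpperHalfPlane.ofComplex_apply]
  obtain ⟨h1, h2⟩ := hlead.tay_order
  obtain ⟨h3, h4⟩ := hk.tay_order
  constructor
  · show (tay _ _).order = (tay _ _).order
    rw [heq, h1, h3]
  · intro k' hk' hfgeq
    have hk'' : k' = k := by
      rw [show (taylorAt τ₀ f).order = (tay (τ₀ : ℂ) ((f : ℍ → ℂ) ∘ ofComplex)).order from rfl, h3] at hk'
      exact_mod_cast hk'.symm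
    subst hk''
    have h5 : a * (c ^ (-2 : ℤ)) ^ k' = a := by
      rw [← h2, ← heq, hfgeq, h4]
    rw [hden]
    exact mul_left_cancel₀ hk.1 (h5.trans (mul_one a).symm)

end FLTAgent.X0Fn
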