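import Fermat.Agent.X0Fn.JExpansion
import Fermat.Agent.X0Fn.Taylor
import Fermat.Agent.CuspForms.Separator
import Fermat.Prelude.Thm_ModularCurve_coeffMap_qExpand

/-!
# Functions of level `N`: the invariants `j (d τ)` and their expansions at all cusps
-/

set_option autoImplicit false

noncomputable section

open UpperHalfPlane CongruenceSubgroup Filter Complex Function
open scoped Topology Manifold MatrixGroups ModularForm

namespace FLTAgent.X0Fn

open FLTAgent.ES (e4 dlt jfun)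
open FLTAgent.CuspForms (mulHalfPlane coe_mulHalfPlane)

/-- `τ ↦ (a τ + b) / e`. -/
def affMap (a e : ℕ) (b : ℤ) (τ : ℍ) : ℍ := ofComplex (((a : ℂ) * τ + b) / e)

theorem affMap_im_pos {a e : ℕ} (ha : a ≠ 0) (he : e ≠ 0) (b : ℤ) (τ : ℍ) :
    0 < (((a : ℂ) * τ + b) / e).im := by
  rw [Complex.div_natCast_im]
  simp only [Complex.add_im, Complex.mul_im, Complex.natCast_re, Complex.natCast_im, zero_mul,
    add_zero, Complex.intCast_im]
  exact div_pos (mul_pos (by exact_mod_cast Nat.pos_of_ne_zero ha) τ.im_pos)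
    (by exact_mod_cast Nat.pos_of_ne_zero he)

theorem coe_affMap {a e : ℕ} (ha : a ≠ 0) (he : e ≠ 0) (b : ℤ) (τ : ℍ) :
    (affMap a e b τ : ℂ) = ((a : ℂ) * τ + b) / e := by
  rw [affMap, ofComplex_apply_of_im_pos (affMap_im_pos ha he b τ)]

theorem mdiff_affMap {a e : ℕ} (ha : a ≠ 0) (he : e ≠ 0) (b : ℤ) : MDiff (affMap a e b) := by
  intro τ
  refine (UpperHalfPlane.mdifferentiableAt_ofComplex (affMap_im_pos ha he b τ)).comp τ ?_
  rw [UpperHalfPlane.mdifferentiableAt_iff]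
  have : DifferentiableAt ℂ (fun z : ℂ => ((a : ℂ) * z + b) / e) τ := by fun_prop
  refine this.congr_of_eventuallyEq ?_
  filter_upwards [isOpen_upperHalfPlaneSet.mem_nhds τ.im_pos] with z hz
  simp [Function.comp_apply, ofComplex_apply_of_im_pos hz]

theorem qh_affMap {N a e : ℕ} [NeZero N] (ha : a ≠ 0) (he : e ≠ 0) (hN : e ∣ N) (b : ℤ) (τ : ℍ) :
    qh 1 (affMap a e b τ) =
      Complex.exp (2 * Real.pi * Complex.I * b / e) * qh (N : ℝ) τ ^ (a * (N / e)) := by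
  obtain ⟨c, rfl⟩ := hN
  have he' : (e : ℂ) ≠ 0 := Nat.cast_ne_zero.2 he
  have hc : (c : ℂ) ≠ 0 := Nat.cast_ne_zero.2 fun h => by simp [h] at *
  rw [Nat.mul_div_cancel_left _ (Nat.pos_of_ne_zero he)]
  simp only [qh, Periodic.qParam, coe_affMap ha he, ← Complex.exp_nat_mul, ← Complex.exp_add]
  congr 1
  push_cast
  field_simp
  ring

theorem mulHalfPlane_smul_decomp (d : ℕ) [NeZero d] (g : SL(2, ℤ)) :
    ∃ (a e : ℕ) (b : ℤ), a * e = d ∧ (e = 1 ↔ (d : ℤ) ∣ g 1 0) ∧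
      ∀ τ : ℍ, jfun (mulHalfPlane d (g • τ)) = jfun (affMap a e b τ) := by
  have hdet : g 0 0 * g 1 1 - g 0 1 * g 1 0 = 1 := by
    have := g.2
    rwa [Matrix.det_fin_two] at this
  have hd0 : (d : ℤ) ≠ 0 := by exact_mod_cast NeZero.ne d
  set a : ℕ := Int.gcd (d * g 0 0) (g 1 0) with hadef
  have ha0 : a ≠ 0 := by
    rw [hadef, ne_eq, Int.gcd_eq_zero_iff]
    rintro ⟨h1, h2⟩
    rcases mul_eq_zero.mp h1 with h | h
    · exact hd0 h
    · rw [h, h2] at hdet; simp at hdet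
  obtain ⟨r, hr⟩ : (a : ℤ) ∣ d * g 0 0 := Int.gcd_dvd_left _ _
  obtain ⟨s, hs⟩ : (a : ℤ) ∣ g 1 0 := Int.gcd_dvd_right _ _
  set w : ℤ := Int.gcdA (d * g 0 0) (g 1 0) with hw
  set x : ℤ := -Int.gcdB (d * g 0 0) (g 1 0) with hx
  have hbez : r * w - x * s = 1 := by
    have h : (a : ℤ) = d * g 0 0 * w + g 1 0 * (-x) := by
      simpa [hadef, hw, hx] using Int.gcd_eq_gcd_ab (d * g 0 0) (g 1 0)
    rw [hr, hs] at h
    exact mul_left_cancel₀ (show (a : ℤ) ≠ 0 by exact_mod_cast ha0) (by linear_combination -h)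
  set e' : ℤ := r * g 1 1 - d * g 0 1 * s with he'
  have hge : (a : ℤ) * e' = d := by
    linear_combination (d : ℤ) * hdet - (g 1 1) * hr + (d : ℤ) * (g 0 1) * hs
  have hepos : 0 < e' := by
    have hapos : (0 : ℤ) < a := by exact_mod_cast Nat.pos_of_ne_zero ha0
    have hdpos : (0 : ℤ) < d := lt_of_le_of_ne (by positivity) hd0.symm
    nlinarith
  obtain ⟨e, he⟩ : ∃ e : ℕ, (e : ℤ) = e' := ⟨e'.toNat, Int.toNat_of_nonneg hepos.le⟩
  have hae : a * e = d := by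
    have : ((a * e : ℕ) : ℤ) = d := by rw [Nat.cast_mul, he, hge]
    exact_mod_cast this
  set b' : ℤ := w * (d * g 0 1) - x * g 1 1 with hb'
  refine ⟨a, e, b', hae, ⟨fun h => ?_, fun h => ?_⟩, fun τ => ?_⟩
  · rw [h, mul_one] at hae
    rw [← hae]
    exact ⟨s, hs⟩
  · have h1 : (d : ℤ) ∣ (a : ℤ) := Int.dvd_coe_gcd (dvd_mul_right _ _) h
    have h2 : a = d := Nat.dvd_antisymm ⟨e, hae.symm⟩ (Int.natCast_dvd_natCast.mp h1)
    rw [h2] at hae
    exact (mul_eq_left₀ (NeZero.ne d)).mp hae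
  · have he0 : e ≠ 0 := by omega
    set γ' : SL(2, ℤ) := ⟨!![r, x; s, w], by rw [Matrix.det_fin_two_of]; exact hbez⟩ with hγ'
    have e1 : (s : ℤ) * b' + w * e' = g 1 1 := by
      rw [hb', he']
      linear_combination (g 1 1) * hbez
    have e2 : (r : ℤ) * b' + x * e' = d * g 0 1 := by
      rw [hb', he']
      linear_combination ((d : ℤ) * g 0 1) * hbez
    rw [← he] at e1 e2
    have key : mulHalfPlane d (g • τ) = γ' • affMap a e b' τ := by
      apply UpperHalfPlane.ext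
      rw [coe_mulHalfPlane, UpperHalfPlane.coe_specialLinearGroup_apply,
        UpperHalfPlane.coe_specialLinearGroup_apply, coe_affMap ha0 he0]
      have e1' : (s : ℂ) * b' + w * e = (g 1 1 : ℤ) := by exact_mod_cast e1
      have e2' : (r : ℂ) * b' + x * e = d * (g 0 1 : ℤ) := by exact_mod_cast e2
      have hs' : ((g 1 0 : ℤ) : ℂ) = a * s := by exact_mod_cast hs
      have hr' : (d : ℂ) * (g 0 0 : ℤ) = a * r := by exact_mod_cast hr
      have hd1 : ((g 1 0 : ℤ) : ℂ) * τ + (g 1 1 : ℤ) ≠ 0 := by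
        simpa [UpperHalfPlane.denom] using UpperHalfPlane.denom_ne_zero (g : GL (Fin 2) ℝ) τ
      have heC : (e : ℂ) ≠ 0 := Nat.cast_ne_zero.2 he0
      have hden2 : (s : ℂ) * (((a : ℂ) * τ + b') / e) + w =
          (((g 1 0 : ℤ) : ℂ) * τ + (g 1 1 : ℤ)) / e := by
        rw [hs', ← e1']; field_simp; ring
      have hnum2 : (r : ℂ) * (((a : ℂ) * τ + b') / e) + x =
          (d : ℂ) * (((g 0 0 : ℤ) : ℂ) * τ + (g 0 1 : ℤ)) / e := by
        rw [show (d : ℂ) * (((g 0 0 : ℤ) : ℂ) * τ + (g 0 1 : ℤ)) =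
          (d : ℂ) * (g 0 0 : ℤ) * τ + d * (g 0 1 : ℤ) by ring, hr', ← e2']
        field_simp; ring
      simp [hγ']
      rw [hden2, hnum2]
      field_simp
    rw [key, FLTAgent.ES.jfun_smul]

/-- `τ ↦ j (d τ)`. -/
def jd (d : ℕ) [NeZero d] : ℍ → ℂ := fun τ => jfun (mulHalfPlane d τ)

theorem jd_one : jd 1 = jfun := by
  funext τ
  rw [jd]
  congr 1
  apply UpperHalfPlane.ext
  simp

theorem jd_eq (d : ℕ) [NeZero d] : jd d = jfun ∘ affMap d 1 0 := by
  funext τ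
  rw [jd, comp_apply]
  congr 1
  apply UpperHalfPlane.ext
  rw [coe_mulHalfPlane, coe_affMap (NeZero.ne d) one_ne_zero]
  simp

theorem mdiff_jd (d : ℕ) [NeZero d] : MDiff (jd d) :=
  jd_eq d ▸ FLTAgent.ES.mdiff_jfun.comp (mdiff_affMap (NeZero.ne d) one_ne_zero 0)

theorem order_single_mul_ofPowerSeries {c : ℂ} (hc : c ≠ 0) {S : PowerSeries ℂ}
    (hS : PowerSeries.constantCoeff S ≠ 0) (k : ℤ) :
    (HahnSeries.single k c * HahnSeries.ofPowerSeries ℤ ℂ S).order = k := by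
  have hk : (HahnSeries.single k c * HahnSeries.ofPowerSeries ℤ ℂ S).coeff k ≠ 0 := by
    rw [HahnSeries.coeff_single_mul, sub_self, show (0 : ℤ) = ((0 : ℕ) : ℤ) from rfl,
      HahnSeries.ofPowerSeries_apply_coeff, PowerSeries.coeff_zero_eq_constantCoeff_apply]
    exact mul_ne_zero hc hS
  refine le_antisymm (HahnSeries.order_le_of_coeff_ne_zero hk)
    ((HahnSeries.le_order_iff_forall fun h => hk (by rw [h, HahnSeries.coeff_zero])).2 fun j hj => ?_)
  rw [HahnSeries.coeff_single_mul, ModularCurve.ofPowerSeries_coeff_of_neg _ (by omega), mul_zero]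

variable (N : ℕ) [NeZero N]

/-- Holomorphic `Γ₀(N)`-invariant functions meromorphic at all cusps. -/
def W0 : Subalgebra ℂ (ℍ → ℂ) where
  carrier := {f | MDiff f ∧ (∀ γ ∈ Gamma0 N, ∀ τ, f (γ • τ) = f τ) ∧
    ∀ g : SL(2, ℤ), (fun τ => f (g • τ)) ∈ PerL (N : ℝ)}
  mul_mem' := by
    rintro f f' ⟨h1, h2, h3⟩ ⟨k1, k2, k3⟩
    exact ⟨h1.mul k1, fun γ hγ τ => by simp only [Pi.mul_apply, h2 γ hγ, k2 γ hγ],
      fun g => mul_mem (h3 g) (k3 g)⟩
  add_mem' := by
    rintro f f' ⟨h1, h2, h3⟩ ⟨k1, k2, k3⟩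
    exact ⟨h1.add k1, fun γ hγ τ => by simp only [Pi.add_apply, h2 γ hγ, k2 γ hγ],
      fun g => add_mem (h3 g) (k3 g)⟩
  algebraMap_mem' c :=
    ⟨mdifferentiable_const, fun _ _ _ => rfl, fun _ => (PerL (N : ℝ)).algebraMap_mem c⟩

variable {N}

theorem W0_le_PerL : W0 N ≤ PerL (N : ℝ) := fun f hf => by simpa using hf.2.2 1

variable (N) in
/-- Expansion at `∞`. -/
def expW : W0 N →ₐ[ℂ] LaurentSeries ℂ :=
  (expL (N : ℝ)).comp (Subalgebra.inclusion W0_le_PerL)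

theorem expW_apply (f : W0 N) : expW N f = expL (N : ℝ) ⟨f, W0_le_PerL f.2⟩ := rfl

theorem expW_injective : Function.Injective (expW N) :=
  expL_injective.comp (Subalgebra.inclusion_injective W0_le_PerL)

theorem jd_mem_W0 {d : ℕ} [NeZero d] (hd : d ∣ N) : jd d ∈ W0 N := by
  refine ⟨mdiff_jd d, fun γ hγ τ => ?_, fun g => ?_⟩
  · obtain ⟨a, e, b, hae, he1, h⟩ := mulHalfPlane_smul_decomp d γ
    have hc : (d : ℤ) ∣ γ 1 0 := by
      rw [Gamma0_mem, ZMod.intCast_zmod_eq_zero_iff_dvd] at hγ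
      exact (Int.natCast_dvd_natCast.mpr hd).trans hγ
    obtain rfl := he1.2 hc
    rw [mul_one] at hae
    subst hae
    rw [jd, jd, h τ]
    have : affMap a 1 b τ = ModularGroup.T ^ b • mulHalfPlane a τ := by
      apply UpperHalfPlane.ext
      rw [coe_affMap (NeZero.ne a) one_ne_zero, UpperHalfPlane.modular_T_zpow_smul]
      simp [add_comm]
    rw [this, FLTAgent.ES.jfun_smul]
  · obtain ⟨a, e, b, hae, -, h⟩ := mulHalfPlane_smul_decomp d g
    have ha : a ≠ 0 := fun h0 => NeZero.ne d (by rw [← hae, h0, zero_mul])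
    have he : e ≠ 0 := fun h0 => NeZero.ne d (by rw [← hae, h0, mul_zero])
    have hen : e ∣ N := (Dvd.intro_left a hae).trans hd
    have hM : a * (N / e) ≠ 0 := mul_ne_zero ha
      (Nat.div_pos (Nat.le_of_dvd (Nat.pos_of_ne_zero (NeZero.ne N)) hen) (Nat.pos_of_ne_zero he)).ne'
    have := jfun_comp_mem_PerL (N := N) (mdiff_affMap ha he b)
      (ζ := Complex.exp (2 * Real.pi * Complex.I * b / e)) (Complex.exp_ne_zero _) hM
      (fun τ => qh_affMap ha he hen b τ)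
    have e1 : (fun τ => jd d (g • τ)) = jfun ∘ affMap a e b := funext fun τ => h τ
    rw [e1]
    exact this

/-- The expansion of `j (d τ)` in `q_N`, matched with the formal one. -/
theorem expW_jd {d : ℕ} [NeZero d] (hd : d ∣ N) :
    expW N ⟨jd d, jd_mem_W0 hd⟩ = ModularCurve.qExpand ℂ N
      (ModularCurve.coeffMap (algebraMap ℚ ℂ) (ModularCurve.qExpand ℚ d ModularCurve.jq)) := by
  have : NeZero (N * d) := ⟨mul_ne_zero (NeZero.ne N) (NeZero.ne d)⟩
  have hq : ∀ τ, qh 1 (affMap d 1 0 τ) = 1 * qh (N : ℝ) τ ^ (N * d) := fun τ => by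
    rw [qh_affMap (NeZero.ne d) one_ne_zero (one_dvd N), Nat.div_one, mul_comm N d]
    simp
  have he : (⟨jd d, W0_le_PerL (jd_mem_W0 hd)⟩ : PerL (N : ℝ)) =
      ⟨jfun ∘ affMap d 1 0, jfun_comp_mem_PerL (mdiff_affMap (NeZero.ne d) one_ne_zero 0) one_ne_zero
        (NeZero.ne (N * d)) hq⟩ := Subtype.ext (jd_eq d)
  rw [← ModularCurve.coeffMap_qExpand, ModularCurve.qExpand_qExpand, qExpand_jq, expW_apply, he,
    expL_jfun_comp (mdiff_affMap (NeZero.ne d) one_ne_zero 0) one_ne_zero (NeZero.ne (N * d)) hq,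
    inv_one]

/-! ### Translates -/

variable (N) in
/-- Cosets of `Γ₀(N)`. -/
abbrev Cos : Type := SL(2, ℤ) ⧸ Gamma0 N

theorem comp_smul_mdiff {f : ℍ → ℂ} (hf : MDiff f) (g : SL(2, ℤ)) : MDiff fun τ => f (g • τ) := by
  have h := FLTAgent.ES.mdiff_slash_SL (k := 0) hf g
  convert h using 1
  funext τ
  simp [ModularForm.SL_slash_apply]

/-- `f ↦ f ∘ g⁻¹` for the coset of `g`. -/
def trans (q : Cos N) : W0 N →ₐ[ℂ] (ℍ → ℂ) where
  toFun f τ := (f : ℍ → ℂ) (q.out⁻¹ • τ)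
  map_one' := rfl
  map_mul' _ _ := rfl
  map_zero' := rfl
  map_add' _ _ := rfl
  commutes' _ := rfl

theorem trans_mk (f : W0 N) (g : SL(2, ℤ)) (τ : ℍ) :
    trans (g : Cos N) f τ = (f : ℍ → ℂ) (g⁻¹ • τ) := by
  obtain ⟨γ, hγ⟩ := QuotientGroup.mk_out_eq_mul (Gamma0 N) g
  show (f : ℍ → ℂ) (_ • τ) = _
  rw [hγ, mul_inv_rev, mul_smul]
  exact f.2.2.1 _ (inv_mem γ.2) _

theorem trans_smul (f : W0 N) (h : SL(2, ℤ)) (q : Cos N) (τ : ℍ) :
    trans (h • q) f τ = trans q f (h⁻¹ • τ) := by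
  induction q using QuotientGroup.induction_on with
  | H g =>
    rw [show h • (g : Cos N) = ((h * g : SL(2, ℤ)) : Cos N) from rfl, trans_mk, trans_mk,
      mul_inv_rev, mul_smul]

theorem trans_one (f : W0 N) : trans ((1 : SL(2, ℤ)) : Cos N) f = (f : ℍ → ℂ) := by
  funext τ
  rw [trans_mk, inv_one, one_smul]

theorem trans_mem_Hol (q : Cos N) (f : W0 N) : trans q f ∈ Hol := comp_smul_mdiff f.2.1 _

theorem trans_mem_PerL (q : Cos N) (f : W0 N) : trans q f ∈ PerL (N : ℝ) := f.2.2.2 _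

theorem trans_injective (q : Cos N) : Function.Injective (trans q) := by
  intro f f' h
  apply Subtype.ext
  funext τ
  have := congrFun h (q.out • τ)
  simpa [trans] using this

/-- `j (N τ)` separates the cosets. -/
theorem cos_eq_of_trans_jd {q q' : Cos N}
    (h : trans q ⟨jd N, jd_mem_W0 dvd_rfl⟩ = trans q' ⟨jd N, jd_mem_W0 dvd_rfl⟩) : q = q' := by
  induction q using QuotientGroup.induction_on with
  | H g =>
  induction q' using QuotientGroup.induction_on with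
  | H g' =>
  have key : ∀ τ, jd N ((g⁻¹ * g') • τ) = jd N τ := fun τ => by
    have := congrFun h (g' • τ)
    rw [trans_mk, trans_mk, inv_smul_smul, ← mul_smul] at this
    exact this
  obtain ⟨a, e, b, hae, he1, hd⟩ := mulHalfPlane_smul_decomp N (g⁻¹ * g')
  have ha : a ≠ 0 := fun h0 => NeZero.ne N (by rw [← hae, h0, zero_mul])
  have he : e ≠ 0 := fun h0 => NeZero.ne N (by rw [← hae, h0, mul_zero])
  have hen : e ∣ N := Dvd.intro_left a hae
  have hM : a * (N / e) ≠ 0 := mul_ne_zero ha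
    (Nat.div_pos (Nat.le_of_dvd (Nat.pos_of_ne_zero (NeZero.ne N)) hen) (Nat.pos_of_ne_zero he)).ne'
  have hM' : N * N ≠ 0 := mul_ne_zero (NeZero.ne N) (NeZero.ne N)
  have hq' : ∀ τ, qh 1 (affMap N 1 0 τ) = 1 * qh (N : ℝ) τ ^ (N * N) := fun τ => by
    rw [qh_affMap (NeZero.ne N) one_ne_zero (one_dvd N), Nat.div_one]
    simp
  have e1 : jfun ∘ affMap a e b = jfun ∘ affMap N 1 0 := by
    funext τ
    rw [← jd_eq, comp_apply, ← hd τ]
    exact key τ
  have heq := expL_jfun_comp (N := N) (mdiff_affMap ha he b) (Complex.exp_ne_zero _) hM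
    (qh_affMap ha he hen b)
  have heq' := expL_jfun_comp (N := N) (mdiff_affMap (NeZero.ne N) one_ne_zero 0) one_ne_zero hM' hq'
  simp only [e1] at heq
  rw [heq'] at heq
  have h1 : ∀ (M : ℕ) (ζ : ℂ), ζ ≠ 0 → M ≠ 0 →
      (HahnSeries.single (-(M : ℤ)) ζ⁻¹ *
        HahnSeries.ofPowerSeries ℤ ℂ (stretch ζ M jNumC)).order = -(M : ℤ) := by
    intro M ζ hζ hM
    have h0 : PowerSeries.constantCoeff (stretch ζ M jNumC) = 1 := by
      rw [← PowerSeries.coeff_zero_eq_constantCoeff_apply, stretch, PowerSeries.coeff_mk]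
      simp [jNumC, PowerSeries.coeff_map]
    exact order_single_mul_ofPowerSeries (inv_ne_zero hζ) (by rw [h0]; exact one_ne_zero) _
  have h2 := congrArg HahnSeries.order heq
  rw [h1 _ _ one_ne_zero hM', h1 _ _ (Complex.exp_ne_zero _) hM] at h2
  have h3 : N * N = a * (N / e) := by omega
  obtain ⟨c, hc⟩ := hen
  rw [hc, Nat.mul_div_cancel_left _ (Nat.pos_of_ne_zero he)] at h3
  have h4 : a = c := by
    have : e * a = e * c := by rw [← hc, mul_comm, hae]
    exact mul_left_cancel₀ he this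
  subst h4
  have h5 : e * e = 1 := by
    have : (e * e) * (a * a) = 1 * (a * a) := by rw [one_mul]; linarith
    exact mul_right_cancel₀ (mul_ne_zero ha ha) this
  have : (N : ℤ) ∣ (g⁻¹ * g') 1 0 := he1.1 (Nat.eq_one_of_mul_eq_one_right h5)
  rw [QuotientGroup.eq, Gamma0_mem, ZMod.intCast_zmod_eq_zero_iff_dvd]
  exact this

/-! ### Level one -/

theorem mem_PerL_one {f : ℍ → ℂ} (hf : f ∈ PerL (N : ℝ)) (hper : Periodic (f ∘ ofComplex) (1 : ℝ)) :
    f ∈ PerL 1 := by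
  obtain ⟨m, hm⟩ := hf
  have hq : qh 1 = qh (N : ℝ) ^ N := by
    funext τ
    simp only [qh, Pi.pow_apply, Periodic.qParam, ← Complex.exp_nat_mul]
    congr 1
    have : (N : ℂ) ≠ 0 := Nat.cast_ne_zero.2 (NeZero.ne N)
    push_cast
    field_simp
  refine ⟨m, ?_⟩
  obtain ⟨k, hk⟩ := Nat.exists_eq_add_of_le (Nat.le_mul_of_pos_left m (Nat.pos_of_ne_zero (NeZero.ne N)))
  have h2 : f * qh 1 ^ m ∈ Per (N : ℝ) := by
    rw [hq, ← pow_mul, hk, pow_add, ← mul_assoc]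
    exact mul_mem hm (pow_mem qh_mem_Per _)
  refine ⟨h2.1, fun z => ?_, h2.2.2⟩
  have h3 := periodic_qh (h := (1 : ℝ)) z
  have h4 := hper z
  simp only [comp_apply, Pi.mul_apply, Pi.pow_apply] at h3 h4 ⊢
  rw [h3, h4]

theorem exists_poly_of_invariant {m : ℕ} : ∀ {f : ℍ → ℂ}, MDiff f →
    (∀ (g : SL(2, ℤ)) τ, f (g • τ) = f τ) → f * qh 1 ^ m ∈ Per 1 →
    ∃ p : Polynomial ℂ, ∀ τ, f τ = p.eval (jfun τ) := by
  induction m with
  | zero =>
    intro f hf hinv hb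
    rw [pow_zero, mul_one] at hb
    have hmem : f ∈ FLTAgent.ES.forms ⊤ 0 := by
      have hs : ∀ g : SL(2, ℤ), f ∣[(0 : ℤ)] g = f := fun g => by
        funext τ
        rw [ModularForm.SL_slash_apply, hinv, neg_zero, zpow_zero, mul_one]
      exact ⟨fun g _ => hs g, hf, fun g => by rw [hs]; exact hb.2.2⟩
    obtain ⟨c, hc⟩ := FLTAgent.ES.levelOne_zero hmem
    exact ⟨Polynomial.C c, fun τ => by simp [hc]⟩
  | succ m ih =>
    intro f hf hinv hb
    set c := PowerSeries.coeff 0 (qExp 1 ⟨_, hb⟩) with hc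
    set g : ℍ → ℂ := f - algebraMap ℂ (ℍ → ℂ) c * jfun ^ (m + 1) with hg
    have hj : (algebraMap ℂ (ℍ → ℂ) c * jfun ^ (m + 1)) * qh 1 ^ (m + 1) ∈ Per 1 := by
      rw [mul_assoc, ← mul_pow]
      exact mul_mem (Subalgebra.algebraMap_mem _ _) (pow_mem jq_mem_Per _)
    have hgq : g * qh 1 ^ (m + 1) ∈ Per 1 := by
      rw [hg, sub_mul]; exact sub_mem hb hj
    have h0 : PowerSeries.coeff 0 (qExp 1 ⟨_, hgq⟩) = 0 := by
      have e : (⟨_, hgq⟩ : Per 1) = ⟨_, hb⟩ - algebraMap ℂ _ c * ⟨_, jq_mem_Per⟩ ^ (m + 1) := by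
        apply Subtype.ext
        simp [hg, sub_mul, mul_pow, mul_assoc]
      rw [e, map_sub, map_mul, map_pow, AlgHom.commutes, qExp_jq, map_sub, ← hc, jNumC]
      have hJ : PowerSeries.constantCoeff (ModularCurve.jNum.map (Int.castRingHom ℂ)) = 1 := by
        rw [← PowerSeries.coeff_zero_eq_constantCoeff_apply, PowerSeries.coeff_map,
          PowerSeries.coeff_zero_eq_constantCoeff_apply, ModularCurve.constantCoeff_jNum, map_one]
      simp [PowerSeries.coeff_zero_eq_constantCoeff_apply, hJ]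
    set u : PerL 1 := ⟨g * qh 1 ^ m, 1, by rwa [pow_one, mul_assoc, ← pow_succ]⟩ with hu
    have hu1 : (g * qh 1 ^ m : ℍ → ℂ) ∈ Per 1 := by
      refine mem_Per_of_coeff u fun n hn => ?_
      have hu2 : (u : ℍ → ℂ) * qh 1 ^ 1 ∈ Per 1 := by rw [pow_one, hu, mul_assoc, ← pow_succ]; exact hgq
      have e : (⟨_, hu2⟩ : Per 1) = ⟨_, hgq⟩ :=
        Subtype.ext (by show g * qh 1 ^ m * qh 1 ^ 1 = _; rw [mul_assoc, ← pow_add])
      rw [expL_eq u hu2, HahnSeries.coeff_single_mul, one_mul, e]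
      push_cast
      rcases lt_or_ge (n - -1) 0 with h | h
      · exact ModularCurve.ofPowerSeries_coeff_of_neg _ h
      · rw [show n - -1 = ((0 : ℕ) : ℤ) by omega, HahnSeries.ofPowerSeries_apply_coeff, h0]
    obtain ⟨p, hp⟩ := ih (hf.sub ((mdifferentiable_const (c := c)).mul (FLTAgent.ES.mdiff_jfun.pow _)))
      (fun γ τ => by
        show f (γ • τ) - c * jfun (γ • τ) ^ (m + 1) = f τ - c * jfun τ ^ (m + 1)
        rw [hinv, FLTAgent.ES.jfun_smul]) hu1
    refine ⟨p + Polynomial.C c * Polynomial.X ^ (m + 1), fun τ => ?_⟩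
    have := hp τ
    simp at this
    simp [← this]

theorem exists_poly_of_level_one {f : ℍ → ℂ} (hf : f ∈ W0 N)
    (hinv : ∀ (g : SL(2, ℤ)) τ, f (g • τ) = f τ) :
    ∃ p : Polynomial ℂ, ∀ τ, f τ = p.eval (jfun τ) := by
  have hper : Periodic (f ∘ ofComplex) (1 : ℝ) := fun z => by
    by_cases hz : 0 < z.im
    · have hz1 : 0 < (z + ((1 : ℝ) : ℂ)).im := by simpa using hz
      simp only [comp_apply, ofComplex_apply_of_im_pos hz, ofComplex_apply_of_im_pos hz1]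
      rw [← hinv ModularGroup.T ⟨z, hz⟩]
      congr 1
      apply UpperHalfPlane.ext
      rw [UpperHalfPlane.modular_T_smul]
      simp [add_comm]
    · have hz1 : (z + ((1 : ℝ) : ℂ)).im ≤ 0 := by simpa using not_lt.mp hz
      simp only [comp_apply, ofComplex_apply_of_im_nonpos hz1,
        ofComplex_apply_of_im_nonpos (not_lt.mp hz)]
  obtain ⟨m, hm⟩ := mem_PerL_one (W0_le_PerL hf) hper
  exact exists_poly_of_invariant hf.1 hinv hm

end FLTAgent.X0Fn
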