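import Fermat.Agent.X0Fn.Field
import Fermat.Agent.ES.Evaluation

/-!
# Monodromy on the embeddings
-/

set_option autoImplicit false

noncomputable section

open UpperHalfPlane CongruenceSubgroup Filter Complex Function
open scoped Topology Manifold MatrixGroups ModularForm

namespace FLTAgent.X0Fn

open FLTAgent.Curves (lord_mul lord_inv)
open FLTAgent.ES (jfun)

variable {K : Type*} [Field K] [Algebra ℚ K] {N : ℕ} [NeZero N] (κ : K →+* ℂ)

/-! ### Passage to quotients -/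

theorem map_incA_ne_zero (φ : XF K N →+* LaurentSeries ℂ) {a : XA K N} (ha : incA K N a ≠ 0) :
    φ (incA K N a) ≠ 0 := (map_ne_zero φ).2 ha

theorem order_eq_of_incA (φ φ' : XF K N →+* LaurentSeries ℂ)
    (h : ∀ a, (φ' (incA K N a)).order = (φ (incA K N a)).order) (f : XF K N) :
    (φ' f).order = (φ f).order := by
  obtain ⟨a, b, rfl⟩ := exists_incA_div f
  rw [map_div₀, map_div₀, div_eq_mul_inv, div_eq_mul_inv]
  by_cases ha : incA K N a = 0
  · simp [ha]
  by_cases hb : incA K N b = 0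
  · simp [hb]
  rw [lord_mul (map_incA_ne_zero φ' ha) (inv_ne_zero (map_incA_ne_zero φ' hb)),
    lord_mul (map_incA_ne_zero φ ha) (inv_ne_zero (map_incA_ne_zero φ hb)), lord_inv, lord_inv, h, h]

theorem dvd_order_of_incA (φ : XF K N →+* LaurentSeries ℂ) {m d : ℤ}
    (h : ∀ a, m ∣ d * (φ (incA K N a)).order) (f : XF K N) : m ∣ d * (φ f).order := by
  obtain ⟨a, b, rfl⟩ := exists_incA_div f
  rw [map_div₀, div_eq_mul_inv]
  by_cases ha : incA K N a = 0
  · simp [ha]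
  by_cases hb : incA K N b = 0
  · simp [hb]
  rw [lord_mul (map_incA_ne_zero φ ha) (inv_ne_zero (map_incA_ne_zero φ hb)), lord_inv, mul_add, mul_neg]
  exact dvd_add (h a) (h b).neg_right

/-! ### At infinity -/

theorem qh_T_zpow (b : ℤ) (τ : ℍ) :
    qh (N : ℝ) (ModularGroup.T ^ b • τ) =
      Complex.exp (2 * Real.pi * Complex.I * b / N) * qh (N : ℝ) τ := by
  simp only [qh, Periodic.qParam, ← Complex.exp_add, UpperHalfPlane.modular_T_zpow_smul, coe_vadd]
  congr 1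
  push_cast
  ring

theorem coeff_expL_shift (f g : PerL (N : ℝ)) (b : ℤ)
    (hfg : ∀ τ, (g : ℍ → ℂ) τ = (f : ℍ → ℂ) (ModularGroup.T ^ b • τ)) (n : ℤ) :
    (expL (N : ℝ) g).coeff n =
      Complex.exp (2 * Real.pi * Complex.I * b / N) ^ n * (expL (N : ℝ) f).coeff n := by
  set ω := Complex.exp (2 * Real.pi * Complex.I * b / N)
  obtain ⟨m₁, hm₁⟩ := f.2
  obtain ⟨m₂, hm₂⟩ := g.2
  have hf : (f : ℍ → ℂ) * qh (N : ℝ) ^ (m₁ + m₂) ∈ Per (N : ℝ) := by
    rw [pow_add, ← mul_assoc]; exact mul_mem hm₁ (pow_mem qh_mem_Per _)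
  have hg : (g : ℍ → ℂ) * qh (N : ℝ) ^ (m₁ + m₂) ∈ Per (N : ℝ) := by
    rw [add_comm, pow_add, ← mul_assoc]; exact mul_mem hm₂ (pow_mem qh_mem_Per _)
  set m := m₁ + m₂
  have hS : qExp (N : ℝ) ⟨_, hg⟩ =
      PowerSeries.mk fun k => ω ^ ((k : ℤ) - m) * PowerSeries.coeff k (qExp (N : ℝ) ⟨_, hf⟩) := by
    refine qExp_eq_of_hasSum fun τ => ?_
    have h1 := (hasSum_qExp ⟨_, hf⟩ (ModularGroup.T ^ b • τ)).mul_left ((ω ^ m)⁻¹)
    have hq := qh_T_zpow (N := N) b τ
    simp only [qh] at hq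
    have hω : ω ≠ 0 := Complex.exp_ne_zero _
    have e : (ω ^ m)⁻¹ * ((f : ℍ → ℂ) * qh (N : ℝ) ^ m) (ModularGroup.T ^ b • τ) =
        ((g : ℍ → ℂ) * qh (N : ℝ) ^ m) τ := by
      simp only [Pi.mul_apply, Pi.pow_apply, hfg, qh, hq, mul_pow]
      have := pow_ne_zero m hω
      field_simp
      ring
    refine (e ▸ h1).congr_fun fun k => ?_
    rw [PowerSeries.coeff_mk, hq, mul_pow, zpow_sub₀ hω, zpow_natCast, zpow_natCast, smul_eq_mul,
      smul_eq_mul]
    ring
  rw [expL_eq g hg, expL_eq f hf, hS, HahnSeries.coeff_single_mul, HahnSeries.coeff_single_mul,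
    sub_neg_eq_add, one_mul, one_mul]
  rcases lt_or_ge (n + m) 0 with h | h
  · rw [ModularCurve.ofPowerSeries_coeff_of_neg _ h, ModularCurve.ofPowerSeries_coeff_of_neg _ h,
      mul_zero]
  · obtain ⟨k, hk⟩ := Int.eq_ofNat_of_zero_le h
    rw [hk, HahnSeries.ofPowerSeries_apply_coeff, HahnSeries.ofPowerSeries_apply_coeff,
      PowerSeries.coeff_mk, show (k : ℤ) - m = n by omega]

theorem coeff_order_ne {x : LaurentSeries ℂ} (hx : x ≠ 0) : x.coeff x.order ≠ 0 := by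
  rw [← HahnSeries.leadingCoeff_eq]
  exact HahnSeries.leadingCoeff_ne_zero.2 hx

theorem order_eq_of_support_eq {x y : LaurentSeries ℂ} (h : x.support = y.support) :
    x.order = y.order := by
  rcases eq_or_ne x 0 with rfl | hx
  · rw [HahnSeries.support_zero, eq_comm, HahnSeries.support_eq_empty_iff] at h
    rw [h]
  have hy : y ≠ 0 := fun hy => hx (by rwa [hy, HahnSeries.support_zero,
    HahnSeries.support_eq_empty_iff] at h)
  apply le_antisymm
  · exact HahnSeries.order_le_of_coeff_ne_zero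
      (show y.order ∈ x.support by rw [h]; exact coeff_order_ne hy)
  · exact HahnSeries.order_le_of_coeff_ne_zero
      (show x.order ∈ y.support by rw [← h]; exact coeff_order_ne hx)

theorem cusp_order_smul_T (q : Cos N) (f : XF K N) :
    (cuspEmb κ (ModularGroup.T • q) f).order = (cuspEmb κ q f).order := by
  refine order_eq_of_incA _ _ (fun a => ?_) f
  rw [cuspEmb_incA, cuspEmb_incA, cuspHom_apply, cuspHom_apply]
  apply order_eq_of_support_eq
  ext n
  rw [HahnSeries.mem_support, HahnSeries.mem_support,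
    coeff_expL_shift ⟨trans q (toW κ a), trans_mem_PerL q _⟩
      ⟨trans (ModularGroup.T • q) (toW κ a), trans_mem_PerL _ _⟩ (-1) (fun τ => by
      show trans (ModularGroup.T • q) (toW κ a) τ = trans q (toW κ a) _
      rw [trans_smul, zpow_neg_one]) n]
  simp [Complex.exp_ne_zero, zpow_ne_zero]

theorem cusp_dvd_order {q : Cos N} {d : ℕ} (hq : ModularGroup.T ^ d • q = q) (f : XF K N) :
    (N : ℤ) ∣ (d : ℤ) * (cuspEmb κ q f).order := by
  refine dvd_order_of_incA _ (fun a => ?_) f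
  rw [cuspEmb_incA, cuspHom_apply]
  set x := expL (N : ℝ) ⟨trans q (toW κ a), trans_mem_PerL q _⟩ with hx
  rcases eq_or_ne x 0 with h0 | h0
  · simp [h0]
  have h := coeff_expL_shift (N := N) ⟨trans q (toW κ a), trans_mem_PerL q _⟩
    ⟨trans q (toW κ a), trans_mem_PerL q _⟩ (-(d : ℤ)) (fun τ => by
      show trans q (toW κ a) τ = trans q (toW κ a) _
      conv_lhs => rw [← hq, trans_smul]
      rw [zpow_neg, zpow_natCast]) x.order
  rw [← hx] at h
  have h1 := mul_right_cancel₀ (coeff_order_ne h0) ((one_mul _).trans h)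
  rw [← Complex.exp_int_mul, eq_comm, Complex.exp_eq_one_iff] at h1
  obtain ⟨k, hk⟩ := h1
  have hN : (N : ℂ) ≠ 0 := Nat.cast_ne_zero.2 (NeZero.ne N)
  refine ⟨-k, ?_⟩
  have h2 : ((d : ℂ) * x.order) = (N : ℂ) * (-k : ℤ) := by
    have h3 := Complex.two_pi_I_ne_zero
    field_simp at hk
    push_cast at hk ⊢
    linear_combination -hk
  exact_mod_cast h2

/-! ### At a point -/

theorem denom_mul_fixed (g g' : SL(2, ℤ)) {τ : ℍ} (h : g' • τ = τ) :
    denom (g * g' : SL(2, ℤ)) (τ : ℂ) = denom g (τ : ℂ) * denom g' (τ : ℂ) := by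
  simp only [ModularGroup.denom_apply]
  have hc := congrArg (fun z : ℍ => (z : ℂ)) h
  simp only [UpperHalfPlane.coe_specialLinearGroup_apply] at hc
  have hne : ((g' 1 0 : ℤ) : ℂ) * τ + (g' 1 1 : ℤ) ≠ 0 := by
    simpa [ModularGroup.denom_apply] using UpperHalfPlane.denom_ne_zero (g' : GL (Fin 2) ℝ) τ
  have hc' : ((g' 0 0 : ℤ) : ℂ) * τ + (g' 0 1 : ℤ) =
      (τ : ℂ) * (((g' 1 0 : ℤ) : ℂ) * τ + (g' 1 1 : ℤ)) := by
    rw [← div_eq_iff hne]
    simpa using hc
  simp only [Matrix.SpecialLinearGroup.coe_mul, Matrix.mul_apply, Fin.sum_univ_two]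
  push_cast
  linear_combination ((g 1 0 : ℤ) : ℂ) * hc'

theorem denom_pow_fixed (g : SL(2, ℤ)) {τ : ℍ} (h : g • τ = τ) (d : ℕ) :
    g ^ d • τ = τ ∧ denom (g ^ d : SL(2, ℤ)) (τ : ℂ) = denom g (τ : ℂ) ^ d := by
  induction d with
  | zero => simp [ModularGroup.denom_apply]
  | succ d ih =>
      refine ⟨by rw [pow_succ, mul_smul, h, ih.1], ?_⟩
      rw [pow_succ, denom_mul_fixed _ _ h, ih.2, pow_succ]

theorem order_ofPowerSeries {S : PowerSeries ℂ} {k : ℕ} (h : S.order = k) :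
    (HahnSeries.ofPowerSeries ℤ ℂ S).order = k := by
  obtain ⟨h1, h2⟩ := PowerSeries.order_eq_nat.1 h
  have hc : (HahnSeries.ofPowerSeries ℤ ℂ S).coeff k ≠ 0 := by
    rwa [HahnSeries.ofPowerSeries_apply_coeff]
  refine le_antisymm (HahnSeries.order_le_of_coeff_ne_zero hc)
    ((HahnSeries.le_order_iff_forall fun h0 => hc (by rw [h0, HahnSeries.coeff_zero])).2 fun j hj => ?_)
  rcases lt_or_ge j 0 with hj0 | hj0
  · exact ModularCurve.ofPowerSeries_coeff_of_neg _ hj0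
  · obtain ⟨i, rfl⟩ := Int.eq_ofNat_of_zero_le hj0
    rw [HahnSeries.ofPowerSeries_apply_coeff]
    exact h2 i (by omega)

theorem order_ofPowerSeries_congr {S S' : PowerSeries ℂ} (h : S.order = S'.order) :
    (HahnSeries.ofPowerSeries ℤ ℂ S).order = (HahnSeries.ofPowerSeries ℤ ℂ S').order := by
  rcases eq_or_ne S 0 with rfl | hS
  · rw [PowerSeries.order_zero, eq_comm, PowerSeries.order_eq_top] at h
    rw [h]
  · obtain ⟨k, hk⟩ := ENat.ne_top_iff_exists.1 fun h0 => hS (PowerSeries.order_eq_top.1 h0)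
    rw [order_ofPowerSeries hk.symm, order_ofPowerSeries (h ▸ hk.symm)]

variable {τ₀ : ℍ} {g : SL(2, ℤ)}

theorem point_order_smul (hg : g • τ₀ = τ₀) (q : Cos N) (f : XF K N) :
    (pointEmb κ τ₀ (g • q) f).order = (pointEmb κ τ₀ q f).order := by
  refine order_eq_of_incA _ _ (fun a => ?_) f
  rw [pointEmb_incA, pointEmb_incA, pointHom_apply, pointHom_apply]
  have hg' : g⁻¹ • τ₀ = τ₀ := by rw [inv_smul_eq_iff, hg]
  exact order_ofPowerSeries_congr (taylor_comp_smul hg'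
    (f := ⟨trans q (toW κ a), trans_mem_Hol q _⟩)
    (fg := ⟨trans (g • q) (toW κ a), trans_mem_Hol _ _⟩) (fun τ => trans_smul _ _ _ _)).1

theorem point_dvd_order (hg : g • τ₀ = τ₀) {m : ℕ}
    (hμ : IsPrimitiveRoot (denom g (τ₀ : ℂ) ^ (-2 : ℤ)) m) {q : Cos N} {d : ℕ}
    (hq : g ^ d • q = q) (f : XF K N) :
    (m : ℤ) ∣ (d : ℤ) * (pointEmb κ τ₀ q f).order := by
  refine dvd_order_of_incA _ (fun a => ?_) f
  rw [pointEmb_incA, pointHom_apply]
  set F : Hol := ⟨trans q (toW κ a), trans_mem_Hol q _⟩ with hF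
  rcases eq_or_ne (taylorAt τ₀ F) 0 with h0 | h0
  · rw [h0, map_zero, HahnSeries.order_zero, mul_zero]; exact dvd_zero _
  obtain ⟨k, hk⟩ := ENat.ne_top_iff_exists.1 fun h => h0 (PowerSeries.order_eq_top.1 h)
  rw [order_ofPowerSeries hk.symm]
  have hg' : g⁻¹ • τ₀ = τ₀ := by rw [inv_smul_eq_iff, hg]
  obtain ⟨hfix, hden⟩ := denom_pow_fixed g⁻¹ hg' d
  have h1 := (taylor_comp_smul hfix (f := F) (fg := F) (fun τ => by
    show trans q (toW κ a) τ = trans q (toW κ a) _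
    conv_lhs => rw [← hq, trans_smul, ← inv_pow])).2 k hk.symm rfl
  have hinv : denom (g⁻¹ : SL(2, ℤ)) (τ₀ : ℂ) = (denom g (τ₀ : ℂ))⁻¹ := by
    refine eq_inv_of_mul_eq_one_left ?_
    rw [← denom_mul_fixed g⁻¹ g hg, inv_mul_cancel]
    simp [ModularGroup.denom_apply]
  rw [hden, hinv, inv_pow, inv_zpow, inv_pow, inv_eq_one, ← zpow_natCast _ d, ← zpow_mul, mul_comm,
    zpow_mul, zpow_natCast, ← pow_mul, hμ.pow_eq_one_iff_dvd] at h1
  exact_mod_cast h1

end FLTAgent.X0Fn
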